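import Mathlib
import Fermat.Agent.Lib.RRCoord
import Fermat.Agent.Lib.DedekindWeber
import Fermat.Agent.Lib.FFSep.Places

/-!
# S18 [RRl]: the genus bound in the coordinate `j = Num(t) / Den(t)` (Place spelling)

Abstract core of the char-`ℓ` genus bound.  `F / K` a function field, `t : F` a coordinate
with `F / K(t)` finite separable, `j = Num(t) / Den(t)`.

* `DiscP K F t` : the Dedekind–Weber dimension formula for the divisors `c (t)_∞` together
  with the discriminant bound `∑_{a ∈ S} (n - #fibre_a) + (n - #fibre_∞) ≤ 2 ∑ δ`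
  (fibres counted as Prelude places).
* `core` : from `DiscP`, for `c` large,
  `2 l(c (j)_∞) ≤ 2 c (deg Num) n + 2 n - (1 + #roots Den) n + #{poles of j}`.
-/

set_option autoImplicit false

noncomputable section

namespace Fermat.Agent.S18.RRl.CoreP

open AlgebraicCurve Polynomial IntermediateField

/-- **The [DISC] contract in Place spelling**: Dedekind–Weber exponents `δ` for the
coordinate `t` (dimension formula for all `c (t)_∞`) whose sum is bounded below by the fibre
defects over any finite set of finite points and over infinity. -/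
def DiscP (K F : Type*) [Field K] [Field F] [Algebra K F] (t : F) : Prop :=
  ∃ δ : Fin (Module.finrank K⟮t⟯ F) → ℤ,
    (∀ (c : ℤ) (D : Divisor K F), (∀ v : Place K F, D v = c * max 0 (-(v.ord t))) →
      Module.Finite K (riemannRochSpace D) ∧
        Module.finrank K (riemannRochSpace D) = ∑ i, (c - δ i + 1).toNat) ∧
    ∀ S : Finset K,
      ∑ a ∈ S, ((Module.finrank K⟮t⟯ F : ℤ) -
          Nat.card {Q : Place K F // 0 < Q.ord (t - algebraMap K F a)})
        + ((Module.finrank K⟮t⟯ F : ℤ) - Nat.card {Q : Place K F // Q.ord t < 0})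
        ≤ 2 * ∑ i, δ i

variable {K F : Type*} [Field K] [Field F] [Algebra K F] {t j : F} {Num Den : K[X]}

/-- **[RRl] core, Place spelling.**  For `c` large,
`2 l(c (j)_∞) ≤ 2 c (deg Num) n + 2 n - (1 + #roots Den) n + #{poles of j}`,
`n = [F : K(t)]`. -/
theorem core [DecidableEq K] [FiniteDimensional K⟮t⟯ F] [Algebra.IsSeparable K⟮t⟯ F]
    (hxt : Transcendental K t) (hdisc : DiscP K F t)
    (hcop : IsCoprime Num Den) (hdeg : Den.natDegree < Num.natDegree)
    (hj : j * aeval t Den = aeval t Num) (hsplit : Den.Splits) :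
    ∃ c₀ : ℕ, ∀ c : ℕ, c₀ ≤ c → ∀ Dj : Divisor K F,
      (∀ Q : Place K F, Dj Q = c * max 0 (-Q.ord j)) →
      Module.Finite K (riemannRochSpace Dj) ∧
        2 * (Module.finrank K (riemannRochSpace Dj) : ℤ) ≤
          2 * c * (Num.natDegree * Module.finrank K⟮t⟯ F) + 2 * Module.finrank K⟮t⟯ F
            - (1 + Den.roots.toFinset.card) * Module.finrank K⟮t⟯ F
            + Nat.card {Q : Place K F // Q.ord j < 0} := by
  obtain ⟨δ, hdim, hdiscb⟩ := hdisc
  have hμ : 1 ≤ Num.natDegree := by omega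
  refine ⟨(∑ i, |δ i|).toNat, fun c hc Dj hDj => ?_⟩
  -- the divisor `c μ (t)_∞`
  have hfin : {Q : Place K F | Q.ord t < 0}.Finite := Fermat.Agent.Lib.FFSep.finite_poles hxt
  let Dt : Divisor K F := Finsupp.onFinset hfin.toFinset
    (fun Q => ((c * Num.natDegree : ℕ) : ℤ) * max 0 (-Q.ord t)) (by
      intro Q hQ
      rw [Set.Finite.mem_toFinset]
      show Q.ord t < 0
      by_contra hnn
      apply hQ
      rw [max_eq_left (by omega), mul_zero])
  have hDt : ∀ Q : Place K F, Dt Q = ((c * Num.natDegree : ℕ) : ℤ) * max 0 (-Q.ord t) :=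
    fun Q => rfl
  obtain ⟨hfinDt, hfr⟩ := hdim ((c * Num.natDegree : ℕ) : ℤ) Dt hDt
  have hfinDj : Module.Finite K (riemannRochSpace Dj) :=
    (Fermat.Agent.Lib.RRCoord.finite_iff hcop hdeg hj c Dj Dt hDj hDt).mpr hfinDt
  refine ⟨hfinDj, ?_⟩
  rw [Fermat.Agent.Lib.RRCoord.finrank_eq hcop hdeg hj c Dj Dt hDj hDt, hfr]
  -- `δ i ≤ c μ + 1`
  have hb : ∀ i, δ i ≤ ((c * Num.natDegree : ℕ) : ℤ) + 1 := by
    intro i
    have h3 : |δ i| ≤ ∑ j, |δ j| :=
      Finset.single_le_sum (f := fun j => |δ j|) (fun j _ => abs_nonneg _) (Finset.mem_univ i)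
    have h4 : δ i ≤ |δ i| := le_abs_self _
    have h5 : (∑ j, |δ j|) ≤ c := by
      have := Int.toNat_le.mp hc
      exact this
    have h6 : (c : ℤ) ≤ ((c * Num.natDegree : ℕ) : ℤ) := by
      exact_mod_cast Nat.le_mul_of_pos_right c hμ
    omega
  rw [Fermat.Agent.Lib.DedekindWeber.sum_toNat_eq δ _ hb, Fintype.card_fin]
  -- the count of the poles of `j`
  have hcard := Fermat.Agent.Lib.RRCoord.card_poles_eq hcop hdeg hj hsplit hfin
    (fun a _ => Fermat.Agent.Lib.FFSep.finite_zeros hxt a)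
  have hS := hdiscb Den.roots.toFinset
  rw [Finset.sum_sub_distrib, Finset.sum_const, nsmul_eq_mul] at hS
  have hcard' : (Nat.card {Q : Place K F // Q.ord j < 0} : ℤ)
      = Nat.card {Q : Place K F // Q.ord t < 0} +
        ∑ a ∈ Den.roots.toFinset,
          (Nat.card {Q : Place K F // 0 < Q.ord (t - algebraMap K F a)} : ℤ) := by
    rw [hcard]; push_cast; ring
  rw [hcard']
  push_cast
  nlinarith [hS]

/-- **[RRl] core with an upper bound `C` for the number of poles of `j`.** -/
theorem core_le [DecidableEq K] [FiniteDimensional K⟮t⟯ F] [Algebra.IsSeparable K⟮t⟯ F]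
    (hxt : Transcendental K t) (hdisc : DiscP K F t)
    (hcop : IsCoprime Num Den) (hdeg : Den.natDegree < Num.natDegree)
    (hj : j * aeval t Den = aeval t Num) (hsplit : Den.Splits)
    (C : ℕ) (hC : Nat.card {Q : Place K F // Q.ord j < 0} ≤ C) :
    ∃ c₀ : ℕ, ∀ c : ℕ, c₀ ≤ c → ∀ Dj : Divisor K F,
      (∀ Q : Place K F, Dj Q = c * max 0 (-Q.ord j)) →
      Module.Finite K (riemannRochSpace Dj) ∧
        2 * (Module.finrank K (riemannRochSpace Dj) : ℤ) ≤
          2 * c * (Num.natDegree * Module.finrank K⟮t⟯ F) + 2 * Module.finrank K⟮t⟯ F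
            - (1 + Den.roots.toFinset.card) * Module.finrank K⟮t⟯ F + C := by
  obtain ⟨c₀, h⟩ := core hxt hdisc hcop hdeg hj hsplit
  refine ⟨c₀, fun c hc Dj hDj => ?_⟩
  obtain ⟨h1, h2⟩ := h c hc Dj hDj
  refine ⟨h1, ?_⟩
  have hC' : (Nat.card {Q : Place K F // Q.ord j < 0} : ℤ) ≤ C := by exact_mod_cast hC
  linarith

end Fermat.Agent.S18.RRl.CoreP
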