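import Mathlib
import Fermat.Agent.S18.Plan
import Fermat.Agent.Lib.RRCoord

/-!
# S18 [RRl] (M1): `WJ κ L c ↪ L(c (j)_∞)` in the Prelude vocabulary

`Plan.WJ κ L c = {y ∈ L | y integral over κ[j], j⁻ᶜ y integral over O_∞}` is contained in the
Prelude Riemann–Roch space of `c · (j)_∞` of the field `L ⊆ κ((q))` (the easy direction: only
"integral over a subring of a valuation ring implies membership").  Hence
`dim WJ κ L c ≤ dim L(c (j)_∞)`.
-/

set_option autoImplicit false

noncomputable section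

namespace Fermat.Agent.S18.RRl.WJPlace

open ModularCurve AlgebraicCurve Polynomial Fermat.Agent.S18.Plan

/-! ### Integrality and valuation rings of a subfield -/

/-- If every element of `R'` comes from the valuation ring of a place `Q` of the subfield `L`,
then an element of `L` integral over `R'` lies in that valuation ring. -/
theorem mem_of_isIntegral {κ Ω : Type*} [Field κ] [Field Ω] [Algebra κ Ω]
    (L : IntermediateField κ Ω) (Q : Place κ L) {R' : Type*} [CommRing R'] [Algebra R' Ω]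
    (hR : ∀ r : R', ∃ x : L, x ∈ Q.toValuationSubring ∧ (x : Ω) = algebraMap R' Ω r)
    (y : L) (hy : IsIntegral R' (y : Ω)) : y ∈ Q.toValuationSubring := by
  choose g hg1 hg2 using hR
  let ψ : R' →+* Q.toValuationSubring :=
    { toFun := fun r => ⟨g r, hg1 r⟩
      map_one' := by
        apply Subtype.ext; apply Subtype.ext
        show (g 1 : Ω) = 1
        rw [hg2, map_one]
      map_mul' := fun a b => by
        apply Subtype.ext; apply Subtype.ext
        show (g (a * b) : Ω) = (g a : Ω) * (g b : Ω)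
        rw [hg2, hg2, hg2, map_mul]
      map_zero' := by
        apply Subtype.ext; apply Subtype.ext
        show (g 0 : Ω) = 0
        rw [hg2, map_zero]
      map_add' := fun a b => by
        apply Subtype.ext; apply Subtype.ext
        show (g (a + b) : Ω) = (g a : Ω) + (g b : Ω)
        rw [hg2, hg2, hg2, map_add] }
  obtain ⟨p, hp, hpy⟩ := hy
  have hint : IsIntegral Q.toValuationSubring y := by
    refine ⟨p.map ψ, hp.map ψ, ?_⟩
    rw [Polynomial.eval₂_map]
    have hinj : Function.Injective (algebraMap L Ω) := (algebraMap L Ω).injective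
    apply hinj
    rw [Polynomial.hom_eval₂, map_zero]
    have hcomp : (algebraMap L Ω).comp ((algebraMap Q.toValuationSubring L).comp ψ)
        = algebraMap R' Ω := by
      ext r
      exact hg2 r
    rw [hcomp]
    exact hpy
  obtain ⟨z, hz⟩ := IsIntegrallyClosed.isIntegral_iff.mp hint
  rw [← hz]
  exact z.2

/-! ### Orders of polynomials in `j` in `κ((q))` -/

variable {κ : Type} [Field κ]

theorem coeff_aeval_jqModC (P : κ[X]) (m : ℤ) :
    (aeval (jqModC κ) P).coeff m
      = ∑ i ∈ Finset.range (P.natDegree + 1), P.coeff i * (jqModC κ ^ i).coeff m := by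
  rw [aeval_eq_sum_range, HahnSeries.coeff_sum]
  refine Finset.sum_congr rfl fun i _ => ?_
  rw [Algebra.smul_def, Fermat.Agent.S18.Content.algebraMap_LS_eq_C, HahnSeries.C_mul_eq_smul,
    HahnSeries.coeff_smul, smul_eq_mul]

theorem coeff_aeval_jqModC_of_lt (P : κ[X]) {m : ℤ} (hm : m < -(P.natDegree : ℤ)) :
    (aeval (jqModC κ) P).coeff m = 0 := by
  rw [coeff_aeval_jqModC]
  refine Finset.sum_eq_zero fun i hi => ?_
  have hi' : i ≤ P.natDegree := Nat.lt_succ_iff.mp (Finset.mem_range.mp hi)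
  rw [coeff_jqModC_pow_of_lt κ (b := i) (m := m) (by
    have : (i : ℤ) ≤ P.natDegree := by exact_mod_cast hi'
    omega), mul_zero]

theorem coeff_aeval_jqModC_self (P : κ[X]) :
    (aeval (jqModC κ) P).coeff (-(P.natDegree : ℤ)) = P.leadingCoeff := by
  rw [coeff_aeval_jqModC, Finset.sum_range_succ, coeff_jqModC_pow_self, mul_one]
  rw [Finset.sum_eq_zero, zero_add]
  · rfl
  · intro i hi
    have hi' : i < P.natDegree := Finset.mem_range.mp hi
    rw [coeff_jqModC_pow_of_lt κ (b := i) (m := -(P.natDegree : ℤ)) (by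
      have : (i : ℤ) < P.natDegree := by exact_mod_cast hi'
      omega), mul_zero]

theorem aeval_jqModC_ne_zero (P : κ[X]) (hP : P ≠ 0) : aeval (jqModC κ) P ≠ 0 := by
  apply HahnSeries.ne_zero_of_coeff_ne_zero (g := -(P.natDegree : ℤ))
  rw [coeff_aeval_jqModC_self]
  exact leadingCoeff_ne_zero.mpr hP

theorem order_aeval_jqModC (P : κ[X]) (hP : P ≠ 0) :
    (aeval (jqModC κ) P).order = -(P.natDegree : ℤ) := by
  apply le_antisymm
  · apply HahnSeries.order_le_of_coeff_ne_zero
    rw [coeff_aeval_jqModC_self]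
    exact leadingCoeff_ne_zero.mpr hP
  · by_contra hlt
    have hlt' : (aeval (jqModC κ) P).order < -(P.natDegree : ℤ) := not_le.mp hlt
    exact aeval_jqModC_ne_zero P hP
      (HahnSeries.coeff_order_eq_zero.mp (coeff_aeval_jqModC_of_lt P hlt'))

/-- A nonzero power series has nonnegative order as a Laurent series. -/
theorem order_nonneg_of_mem_range {x : LaurentSeries κ}
    (hx : x ∈ (HahnSeries.ofPowerSeries ℤ κ).range) (hx0 : x ≠ 0) : 0 ≤ x.order := by
  obtain ⟨s, rfl⟩ := hx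
  by_contra hneg
  have hlt : ((HahnSeries.ofPowerSeries ℤ κ) s).order < 0 := not_le.mp hneg
  apply hx0
  apply HahnSeries.coeff_order_eq_zero.mp
  have := PowerSeries.coeff_coe (R := κ) (f := s) ((HahnSeries.ofPowerSeries ℤ κ) s).order
  rw [if_pos hlt] at this
  exact this

/-- A quotient `P(j)/Q(j)` which is a power series in `q` has `deg P ≤ deg Q`. -/
theorem natDegree_le_of_div_mem_range (P Q' : κ[X]) (hP : P ≠ 0) (hQ : Q' ≠ 0)
    (h : aeval (jqModC κ) P / aeval (jqModC κ) Q' ∈ (HahnSeries.ofPowerSeries ℤ κ).range) :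
    P.natDegree ≤ Q'.natDegree := by
  have hPj := aeval_jqModC_ne_zero P hP
  have hQj := aeval_jqModC_ne_zero Q' hQ
  set r := aeval (jqModC κ) P / aeval (jqModC κ) Q' with hr
  have hr0 : r ≠ 0 := div_ne_zero hPj hQj
  have hmul : r * aeval (jqModC κ) Q' = aeval (jqModC κ) P := div_mul_cancel₀ _ hQj
  have hord : (r * aeval (jqModC κ) Q').order = r.order + (aeval (jqModC κ) Q').order := by
    apply HahnSeries.order_mul_of_ne_zero
    exact mul_ne_zero (HahnSeries.leadingCoeff_ne_zero.mpr hr0)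
      (HahnSeries.leadingCoeff_ne_zero.mpr hQj)
  rw [hmul, order_aeval_jqModC P hP, order_aeval_jqModC Q' hQ] at hord
  have hnn := order_nonneg_of_mem_range h hr0
  have : (P.natDegree : ℤ) ≤ Q'.natDegree := by omega
  exact_mod_cast this

/-! ### `WJ` inside the Riemann–Roch space -/

variable (L : IntermediateField κ (LaurentSeries κ)) (hjL : jqModC κ ∈ L)

/-- Elements of `κ[j]` come from the valuation ring of every place where `j` is regular. -/
theorem polyJ_lift (Q : Place κ L)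
    (hjQ : (⟨jqModC κ, hjL⟩ : L) ∈ Q.toValuationSubring) (r : polyJ κ) :
    ∃ x : L, x ∈ Q.toValuationSubring ∧
      (x : LaurentSeries κ) = algebraMap (polyJ κ) (LaurentSeries κ) r := by
  have hr : (r : LaurentSeries κ) ∈ (aeval (R := κ) (jqModC κ)).range := by
    rw [← Algebra.adjoin_singleton_eq_range_aeval]
    exact r.2
  obtain ⟨p, hp⟩ := hr
  refine ⟨aeval (⟨jqModC κ, hjL⟩ : L) p, Fermat.Agent.Lib.RRCoord.aeval_mem Q hjQ p, ?_⟩
  have h1 := aeval_algHom_apply L.val (⟨jqModC κ, hjL⟩ : L) p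
  show L.val (aeval (⟨jqModC κ, hjL⟩ : L) p) = (r : LaurentSeries κ)
  rw [← h1, ← hp]
  rfl

/-- Elements of `O_∞ = κ(j) ∩ κ[[q]]` come from the valuation ring of every pole of `j`. -/
theorem OinfJ_lift (Q : Place κ L) (hjQ : Q.ord (⟨jqModC κ, hjL⟩ : L) < 0) (r : OinfJ κ) :
    ∃ x : L, x ∈ Q.toValuationSubring ∧
      (x : LaurentSeries κ) = algebraMap (OinfJ κ) (LaurentSeries κ) r := by
  obtain ⟨hr1, hr2⟩ := r.2
  have hr1' : (r : LaurentSeries κ) ∈ IntermediateField.adjoin κ {jqModC κ} := hr1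
  obtain ⟨P, Q', hPQ⟩ := (IntermediateField.mem_adjoin_simple_iff κ _).mp hr1'
  rcases eq_or_ne (r : LaurentSeries κ) 0 with h0 | h0
  · exact ⟨0, zero_mem _, by rw [show algebraMap (OinfJ κ) (LaurentSeries κ) r
      = (r : LaurentSeries κ) from rfl, h0]; rfl⟩
  have hPj : aeval (jqModC κ) P ≠ 0 := by
    intro h; apply h0; rw [hPQ, h, zero_div]
  have hQj : aeval (jqModC κ) Q' ≠ 0 := by
    intro h; apply h0; rw [hPQ, h, div_zero]
  have hP : P ≠ 0 := by rintro rfl; simp at hPj
  have hQ : Q' ≠ 0 := by rintro rfl; simp at hQj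
  have hdeg : P.natDegree ≤ Q'.natDegree :=
    natDegree_le_of_div_mem_range P Q' hP hQ (by rw [← hPQ]; exact hr2)
  set jL : L := ⟨jqModC κ, hjL⟩ with hjLdef
  obtain ⟨hPL, hPord⟩ := Fermat.Agent.Lib.RRCoord.ord_aeval_of_ord_neg Q hjQ P hP
  obtain ⟨hQL, hQord⟩ := Fermat.Agent.Lib.RRCoord.ord_aeval_of_ord_neg Q hjQ Q' hQ
  refine ⟨aeval jL P / aeval jL Q', ?_, ?_⟩
  · apply Fermat.Agent.Lib.RRCoord.mem_of_ord_nonneg
    rw [div_eq_mul_inv, Q.ord_mul hPL (inv_ne_zero hQL), Q.ord_inv, hPord, hQord]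
    have h1 : ((P.natDegree : ℤ) - Q'.natDegree) * Q.ord jL ≥ 0 :=
      mul_nonneg_of_nonpos_of_nonpos (by
        have : (P.natDegree : ℤ) ≤ Q'.natDegree := by exact_mod_cast hdeg
        omega) (by omega)
    nlinarith
  · show L.val (aeval jL P / aeval jL Q') = (r : LaurentSeries κ)
    rw [map_div₀, ← aeval_algHom_apply, ← aeval_algHom_apply, hPQ]
    rfl

/-- **(M1)** `WJ κ L c` is contained in the Prelude Riemann–Roch space of `c (j)_∞`. -/
theorem mem_riemannRochSpace_of_mem_WJ (c : ℕ) (D : Divisor κ L)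
    (hD : ∀ Q : Place κ L, D Q = c * max 0 (-(Q.ord (⟨jqModC κ, hjL⟩ : L))))
    (y : L) (hy : (y : LaurentSeries κ) ∈ WJ κ L c) : y ∈ riemannRochSpace D := by
  obtain ⟨-, hy2, hy3⟩ := hy
  set jL : L := ⟨jqModC κ, hjL⟩ with hjLdef
  have hj0 : jL ≠ 0 := by
    intro h
    have : jqModC κ = 0 := congrArg Subtype.val h
    exact jqModC_ne_zero_of_nontrivial κ this
  rw [mem_riemannRochSpace_iff]
  intro Q
  rcases eq_or_ne y 0 with hy0 | hy0
  · exact Or.inl hy0
  right
  rw [hD Q]
  by_cases hjQ : Q.ord jL < 0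
  · -- a pole of `j`
    have hmem : jL⁻¹ ^ c * y ∈ Q.toValuationSubring := by
      apply mem_of_isIntegral L Q (R' := OinfJ κ) (OinfJ_lift L hjL Q hjQ)
      show IsIntegral (OinfJ κ) (L.val (jL⁻¹ ^ c * y))
      rw [map_mul, map_pow, map_inv₀]
      exact hy3
    have hpow0 : jL⁻¹ ^ c ≠ 0 := pow_ne_zero _ (inv_ne_zero hj0)
    have hord := (Fermat.Agent.Lib.FFPlaces.mem_iff_ord_nonneg Q (mul_ne_zero hpow0 hy0)).mp hmem
    rw [Q.ord_mul hpow0 hy0] at hord
    have hpw : Q.ord (jL⁻¹ ^ c) = -(c * Q.ord jL) := by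
      have := Q.ord_zpow jL⁻¹ (c : ℤ)
      rw [zpow_natCast, Q.ord_inv] at this
      rw [this]; ring
    rw [hpw] at hord
    rw [max_eq_right (by omega : (0 : ℤ) ≤ -Q.ord jL)]
    nlinarith
  · have hjO : jL ∈ Q.toValuationSubring :=
      Fermat.Agent.Lib.RRCoord.mem_of_ord_nonneg Q (not_lt.mp hjQ)
    have hmem : y ∈ Q.toValuationSubring :=
      mem_of_isIntegral L Q (R' := polyJ κ) (polyJ_lift L hjL Q hjO) y hy2
    have hord := (Fermat.Agent.Lib.FFPlaces.mem_iff_ord_nonneg Q hy0).mp hmem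
    rw [max_eq_left (by omega : -Q.ord jL ≤ (0 : ℤ)), mul_zero, neg_zero]
    exact hord

/-- The `κ`-linear injection `WJ κ L c → L(c (j)_∞)`. -/
def wjToRR (c : ℕ) (D : Divisor κ L)
    (hD : ∀ Q : Place κ L, D Q = c * max 0 (-(Q.ord (⟨jqModC κ, hjL⟩ : L)))) :
    WJ κ L c →ₗ[κ] riemannRochSpace D where
  toFun y := ⟨⟨(y : LaurentSeries κ), y.2.1⟩,
    mem_riemannRochSpace_of_mem_WJ L hjL c D hD ⟨(y : LaurentSeries κ), y.2.1⟩ y.2⟩
  map_add' y z := rfl
  map_smul' a y := by
    apply Subtype.ext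
    apply Subtype.ext
    show ((a • y : WJ κ L c) : LaurentSeries κ)
      = ((a • (⟨(y : LaurentSeries κ), y.2.1⟩ : L) : L) : LaurentSeries κ)
    rw [Submodule.coe_smul, IntermediateField.coe_smul]
    rw [Algebra.smul_def, Fermat.Agent.S18.Content.algebraMap_LS_eq_C, HahnSeries.C_mul_eq_smul]

theorem wjToRR_injective (c : ℕ) (D : Divisor κ L)
    (hD : ∀ Q : Place κ L, D Q = c * max 0 (-(Q.ord (⟨jqModC κ, hjL⟩ : L)))) :
    Function.Injective (wjToRR L hjL c D hD) := by
  intro y z h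
  apply Subtype.ext
  exact congrArg (fun w : riemannRochSpace D => ((w : L) : LaurentSeries κ)) h

/-- **(M1), dimension form.** -/
theorem finrank_WJ_le (c : ℕ) (D : Divisor κ L)
    (hD : ∀ Q : Place κ L, D Q = c * max 0 (-(Q.ord (⟨jqModC κ, hjL⟩ : L))))
    [Module.Finite κ (riemannRochSpace D)] :
    Module.Finite κ (WJ κ L c) ∧
      Module.finrank κ (WJ κ L c) ≤ Module.finrank κ (riemannRochSpace D) :=
  ⟨FiniteDimensional.of_injective (wjToRR L hjL c D hD) (wjToRR_injective L hjL c D hD),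
    LinearMap.finrank_le_finrank_of_injective (wjToRR_injective L hjL c D hD)⟩

/-- **(M1), ready-to-use form** (finiteness of the Riemann–Roch space as a hypothesis). -/
theorem finrank_WJ_le' (c : ℕ) (D : Divisor κ L)
    (hD : ∀ Q : Place κ L, D Q = c * max 0 (-(Q.ord (⟨jqModC κ, hjL⟩ : L))))
    (hfin : Module.Finite κ (riemannRochSpace D)) :
    Module.Finite κ (WJ κ L c) ∧
      Module.finrank κ (WJ κ L c) ≤ Module.finrank κ (riemannRochSpace D) :=
  finrank_WJ_le L hjL c D hD

end Fermat.Agent.S18.RRl.WJPlace
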