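import Mathlib
import Fermat.Agent.S18.Plan
import Fermat.Agent.Lib.RRCoord
import Fermat.Agent.Lib.FFPoles
import Fermat.Agent.Lib.FFSep.Divisor
import Fermat.Agent.Lib.DedekindWeber.Genus
import Fermat.Agent.S18.RRl.CoreP
import Fermat.Agent.S18.RRl.WJPlace
import Fermat.Agent.S18.CuspEmb
import Fermat.Agent.S18.Haupt.Poly9
import Fermat.Agent.Lib.ResidueAlgClosed
import Fermat.Agent.S18.ContentMain

/-!
# S18 — block [RRl]: the genus bound in characteristic `ℓ` (owner: helper76)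

`Plan.RRl A (M * N)` for `M = 4` (`ℓ ≠ 2`) and `M = 9` (`ℓ ≠ 3`), `ℓ ∤ M * N`:

* the explicit Hauptmodul `t` of level `M` (`Haupt/Poly4`, `Haupt/Poly9`) gives a coordinate with
  `j̄ = Num(t)/Den(t)`;
* `CoreP.core_le` (Dedekind–Weber exponents for the chart `t` + the local discriminant bound)
  bounds `l(c (j̄)_∞)`;
* `WJPlace.finrank_WJ_le'` compares `Plan.WJ` with `l(c (j̄)_∞)`;
* `CuspEmb.card_poles_jk` counts the poles of `j̄` (`= cuspCount n`).
-/

set_option autoImplicit false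

noncomputable section

namespace Fermat.Agent.S18.RRl.Main

open AlgebraicCurve Polynomial IntermediateField

section Chart

variable {K F : Type*} [Field K] [Field F] [Algebra K F]

/-- Chart transfer (finiteness): if `j ∈ K(t)` and `F / K(j)` is finite then `F / K(t)` is finite. -/
theorem finiteDimensional_of_mem {t j : F} (hjt : j ∈ K⟮t⟯) [FiniteDimensional K⟮j⟯ F] :
    FiniteDimensional K⟮t⟯ F := by
  have hle : K⟮j⟯ ≤ K⟮t⟯ := by
    rw [adjoin_simple_le_iff]; exact hjt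
  let _ : Algebra K⟮j⟯ K⟮t⟯ := (IntermediateField.inclusion hle).toRingHom.toAlgebra
  have : IsScalarTower K⟮j⟯ K⟮t⟯ F := IsScalarTower.of_algebraMap_eq (fun _ => rfl)
  exact Module.Finite.of_restrictScalars_finite K⟮j⟯ K⟮t⟯ F

/-- Chart transfer (separability). -/
theorem isSeparable_of_mem {t j : F} (hjt : j ∈ K⟮t⟯) [Algebra.IsSeparable K⟮j⟯ F] :
    Algebra.IsSeparable K⟮t⟯ F := by
  have hle : K⟮j⟯ ≤ K⟮t⟯ := by
    rw [adjoin_simple_le_iff]; exact hjt
  let _ : Algebra K⟮j⟯ K⟮t⟯ := (IntermediateField.inclusion hle).toRingHom.toAlgebra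
  have : IsScalarTower K⟮j⟯ K⟮t⟯ F := IsScalarTower.of_algebraMap_eq (fun _ => rfl)
  exact Algebra.isSeparable_tower_top_of_isSeparable K⟮j⟯ K⟮t⟯ F

/-- Chart transfer (transcendence). -/
theorem transcendental_of_mem {t j : F} (hjt : j ∈ K⟮t⟯) (hj : Transcendental K j) :
    Transcendental K t := by
  intro halg
  have : Algebra.IsAlgebraic K K⟮t⟯ := isAlgebraic_adjoin_simple halg.isIntegral
  have h1 : IsAlgebraic K (⟨j, hjt⟩ : K⟮t⟯) := Algebra.IsAlgebraic.isAlgebraic _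
  exact hj (by simpa using h1.algebraMap (A := F))

variable {t j : F} {Num Den : K[X]}

theorem mem_adjoin_of_rel (hcop : IsCoprime Num Den) (hj : j * aeval t Den = aeval t Num) :
    j ∈ K⟮t⟯ := by
  rw [Lib.RRCoord.j_eq hcop hj]
  have ht : t ∈ K⟮t⟯ := mem_adjoin_simple_self K t
  have h : ∀ p : K[X], aeval t p ∈ K⟮t⟯ := fun p => by
    rw [aeval_eq_sum_range]
    exact sum_mem fun i _ => by
      rw [Algebra.smul_def]
      exact mul_mem (K⟮t⟯.algebraMap_mem _) (pow_mem ht i)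
  exact div_mem (h Num) (h Den)

/-- **Degree identity**: `[F : K(j)] = deg Num * [F : K(t)]` when `j = Num(t)/Den(t)`,
`deg Den < deg Num`, coprime. -/
theorem finrank_eq_natDegree_mul [IsAlgClosed K]
    [FiniteDimensional K⟮j⟯ F] [Algebra.IsSeparable K⟮j⟯ F]
    (hxj : Transcendental K j)
    (hcop : IsCoprime Num Den) (hdeg : Den.natDegree < Num.natDegree)
    (hj : j * aeval t Den = aeval t Num) :
    Module.finrank K⟮j⟯ F = Num.natDegree * Module.finrank K⟮t⟯ F := by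
  have hjt := mem_adjoin_of_rel hcop hj
  have : FiniteDimensional K⟮t⟯ F := finiteDimensional_of_mem hjt
  have : Algebra.IsSeparable K⟮t⟯ F := isSeparable_of_mem hjt
  have hxt : Transcendental K t := transcendental_of_mem hjt hxj
  obtain ⟨Cj, hCj⟩ := Lib.FFPoles.exists_poleDivisor (K := K) (F := F) hxj
  obtain ⟨Ct, hCt⟩ := Lib.FFPoles.exists_poleDivisor (K := K) (F := F) hxt
  have h1 := Lib.FFPoles.degree_poleDivisor hxj Cj hCj
  have h2 := Lib.FFPoles.degree_poleDivisor hxt Ct hCt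
  have hden := Lib.RRCoord.aeval_den_ne_zero hcop hj
  have h3 := Lib.FFSep.degree_divOf hxt hden
  have e : Cj = Num.natDegree • Ct + Lib.FFSep.divOf hxt (aeval t Den) := by
    ext Q
    rw [Finsupp.add_apply, Finsupp.smul_apply, hCj, hCt, Lib.FFSep.divOf_apply,
      Lib.RRCoord.pole_eq hcop hdeg hj Q]
    simp
  rw [e, map_add, map_nsmul, h2, h3, add_zero] at h1
  have : ((Num.natDegree * Module.finrank K⟮t⟯ F : ℕ) : ℤ) = (Module.finrank K⟮j⟯ F : ℤ) := by
    rw [← h1]; simp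
  exact_mod_cast this.symm

end Chart

section Level

open ModularCurve Fermat.Agent.S18.CuspEmb

variable (κ : Type) [Field κ] [IsAlgClosed κ] (n : ℕ)

/-- **[RRl], abstract form**: the genus bound at level `n` over an algebraically closed field
`κ`, from a coordinate `t ∈ F_{n,κ}` with `j̄ = Num(t)/Den(t)` whose pole set on `P¹` has
`1 + #roots Den = (deg Num + 12)/6` points, the degree `[F_{n,κ} : κ(j̄)] = ψ(n)`,
separability, and the bound `#poles of j̄ ≤ cuspCount n`. -/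
theorem wj_bound [DecidableEq κ]
    (hfd : FiniteDimensional κ⟮jk κ n⟯ ↥(modularFunctionFieldFullC κ n))
    (hsep : Algebra.IsSeparable κ⟮jk κ n⟯ ↥(modularFunctionFieldFullC κ n))
    (hpsi : Module.finrank κ⟮jk κ n⟯ ↥(modularFunctionFieldFullC κ n) = dedekindPsi n)
    (hcusp : Nat.card {Q : Place κ ↥(modularFunctionFieldFullC κ n) // Q.ord (jk κ n) < 0}
      ≤ cuspCount n)
    (t : LaurentSeries κ) (ht : t ∈ modularFunctionFieldFullC κ n) (Num Den : κ[X])
    (hrel : jqModC κ * aeval t Den = aeval t Num)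
    (hcop : IsCoprime Num Den) (hdeg : Den.natDegree < Num.natDegree) (hsplit : Den.Splits)
    (hnum : Num.natDegree + 12 = 6 * (1 + Den.roots.toFinset.card)) :
    ∃ c₀ : ℕ, ∀ c : ℕ, c₀ ≤ c →
      Module.Finite κ (Plan.WJ κ (modularFunctionFieldFullC κ n) c) ∧
      12 * (Module.finrank κ (Plan.WJ κ (modularFunctionFieldFullC κ n) c) : ℤ)
        ≤ 12 * (c : ℤ) * (dedekindPsi n : ℤ) - (dedekindPsi n : ℤ) + 6 * (cuspCount n : ℤ) := by
  have hj : jk κ n * aeval (⟨t, ht⟩ : ↥(modularFunctionFieldFullC κ n)) Den =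
      aeval (⟨t, ht⟩ : ↥(modularFunctionFieldFullC κ n)) Num := by
    apply Subtype.ext
    have h1 := aeval_algHom_apply (modularFunctionFieldFullC κ n).val
      (⟨t, ht⟩ : ↥(modularFunctionFieldFullC κ n)) Den
    have h2 := aeval_algHom_apply (modularFunctionFieldFullC κ n).val
      (⟨t, ht⟩ : ↥(modularFunctionFieldFullC κ n)) Num
    have h3 : (modularFunctionFieldFullC κ n).val
        (jk κ n * aeval (⟨t, ht⟩ : ↥(modularFunctionFieldFullC κ n)) Den) =
        (modularFunctionFieldFullC κ n).val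
          (aeval (⟨t, ht⟩ : ↥(modularFunctionFieldFullC κ n)) Num) := by
      rw [map_mul, ← h1, ← h2]
      exact hrel
    exact h3
  have hxj : Transcendental κ (jk κ n) := transcendental_jk n κ
  have hjt := mem_adjoin_of_rel hcop hj
  have : FiniteDimensional κ⟮(⟨t, ht⟩ : ↥(modularFunctionFieldFullC κ n))⟯
      ↥(modularFunctionFieldFullC κ n) := finiteDimensional_of_mem hjt
  have : Algebra.IsSeparable κ⟮(⟨t, ht⟩ : ↥(modularFunctionFieldFullC κ n))⟯
      ↥(modularFunctionFieldFullC κ n) := isSeparable_of_mem hjt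
  have hxt := transcendental_of_mem hjt hxj
  have hdegid := finrank_eq_natDegree_mul hxj hcop hdeg hj
  obtain ⟨c₀, hc₀⟩ := CoreP.core_le hxt (Lib.DedekindWeber.exists_exponents_genus_le hxt)
    hcop hdeg hj hsplit (cuspCount n) hcusp
  refine ⟨c₀, fun c hc => ?_⟩
  obtain ⟨Cj, hCj⟩ := Lib.FFPoles.exists_poleDivisor
    (K := κ) (F := ↥(modularFunctionFieldFullC κ n)) hxj
  have hD : ∀ Q : Place κ ↥(modularFunctionFieldFullC κ n),
      (c • Cj) Q = c * max 0 (-Q.ord (jk κ n)) := fun Q => by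
    rw [Finsupp.smul_apply, hCj]; simp
  obtain ⟨hfin, hle⟩ := hc₀ c hc (c • Cj) hD
  obtain ⟨hfinW, hleW⟩ := WJPlace.finrank_WJ_le' (modularFunctionFieldFullC κ n)
    (jqModC_mem_full κ n) c (c • Cj) hD hfin
  refine ⟨hfinW, ?_⟩
  have h1 : (Module.finrank κ (Plan.WJ κ (modularFunctionFieldFullC κ n) c) : ℤ) ≤
      Module.finrank κ (riemannRochSpace (c • Cj)) := by exact_mod_cast hleW
  have h2 : (dedekindPsi n : ℤ) = Num.natDegree *
      Module.finrank κ⟮(⟨t, ht⟩ : ↥(modularFunctionFieldFullC κ n))⟯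
        ↥(modularFunctionFieldFullC κ n) := by
    rw [← hpsi, hdegid]; push_cast; ring
  have h3 : ((Num.natDegree : ℤ) + 12) *
      Module.finrank κ⟮(⟨t, ht⟩ : ↥(modularFunctionFieldFullC κ n))⟯
        ↥(modularFunctionFieldFullC κ n) = 6 * ((1 + (Den.roots.toFinset.card : ℤ)) *
      Module.finrank κ⟮(⟨t, ht⟩ : ↥(modularFunctionFieldFullC κ n))⟯
        ↥(modularFunctionFieldFullC κ n)) := by
    rw [← mul_assoc]
    congr 1
    exact_mod_cast hnum
  rw [h2]
  linarith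

end Level

section Final

open ModularCurve Fermat.Agent.S18.CuspEmb Fermat.Agent.S18.Haupt Fermat.Agent.S24
  Fermat.Agent.S18.Plan

variable (ℓ : ℕ) [Fact ℓ.Prime] (N : ℕ) [NeZero N] (A : ValuationSubring Kbar)

/-- **[RRl] at level `4 N`** (`ℓ ∤ 4 N`). -/
theorem rrl_four (hℓ : ¬ ℓ ∣ 4 * N) (hA : A.LiesOverPrime ℓ) : Plan.RRl A (4 * N) := by
  have : CharP (kk A) ℓ := Content.charP_residueField_of_liesOverPrime A ℓ hA
  have : IsAlgClosed (kk A) := Lib.ResidueAlgClosed.isAlgClosed_residueField A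
  have h2 : (2 : kk A) ≠ 0 := by
    intro h
    have h' : ((2 : ℕ) : kk A) = 0 := by exact_mod_cast h
    rw [CharP.cast_eq_zero_iff (kk A) ℓ] at h'
    exact hℓ (Dvd.dvd.mul_right (h'.trans (by norm_num : (2 : ℕ) ∣ 4)) N)
  obtain ⟨ζ, ι, -, -, -, -, -, hsep⟩ := exists_cusp_embeddings (4 * N) ℓ hℓ (kk A)
  have hpsi := finrank_fullC (kk A) (4 * N) ℓ hℓ
  have hfd := finiteDimensional_fullC (4 * N) ℓ hℓ (kk A)
  have hcusp := (card_poles_jk (4 * N) ℓ hℓ (kk A)).le
  have ht : t4 (kk A) ∈ modularFunctionFieldFullC (kk A) (4 * N) :=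
    full_degeneracyC_le (kk A) (dvd_mul_right 4 N) (t4_mem h2)
  exact @wj_bound (kk A) _ _ (4 * N) (Classical.decEq _) hfd hsep hpsi hcusp (t4 (kk A)) ht
    (num4 (kk A)) (den4 (kk A)) (jq_mul_aeval_den4 (kk A)) (isCoprime_num4_den4 h2)
    (natDegree_den4_lt (kk A)) (splits_den4 (kk A))
    (by rw [natDegree_num4, @card_roots_den4 (kk A) _ (Classical.decEq _) h2])

/-- **[RRl] at level `9 N`** (`ℓ ∤ 9 N`). -/
theorem rrl_nine (hℓ : ¬ ℓ ∣ 9 * N) (hA : A.LiesOverPrime ℓ) : Plan.RRl A (9 * N) := by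
  have : CharP (kk A) ℓ := Content.charP_residueField_of_liesOverPrime A ℓ hA
  have : IsAlgClosed (kk A) := Lib.ResidueAlgClosed.isAlgClosed_residueField A
  have h3 : (3 : kk A) ≠ 0 := by
    intro h
    have h' : ((3 : ℕ) : kk A) = 0 := by exact_mod_cast h
    rw [CharP.cast_eq_zero_iff (kk A) ℓ] at h'
    exact hℓ (Dvd.dvd.mul_right (h'.trans (by norm_num : (3 : ℕ) ∣ 9)) N)
  obtain ⟨ζ, ι, -, -, -, -, -, hsep⟩ := exists_cusp_embeddings (9 * N) ℓ hℓ (kk A)
  have hpsi := finrank_fullC (kk A) (9 * N) ℓ hℓ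
  have hfd := finiteDimensional_fullC (9 * N) ℓ hℓ (kk A)
  have hcusp := (card_poles_jk (9 * N) ℓ hℓ (kk A)).le
  have ht : t9 (kk A) ∈ modularFunctionFieldFullC (kk A) (9 * N) :=
    full_degeneracyC_le (kk A) (dvd_mul_right 9 N) (t9_mem h3)
  exact @wj_bound (kk A) _ _ (9 * N) (Classical.decEq _) hfd hsep hpsi hcusp (t9 (kk A)) ht
    (num9 (kk A)) (den9 (kk A)) (jq_mul_aeval_den9 (kk A)) (isCoprime_num9_den9 h3)
    (natDegree_den9_lt (kk A)) (splits_den9 (kk A))
    (by rw [natDegree_num9, @card_roots_den9 (kk A) _ _ (Classical.decEq _) h3])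

/-- **[RRl]** `Plan.RRl A (M * N)` with `M = 9` if `ℓ = 2` and `M = 4` otherwise, for `ℓ ∤ N`
and `A` over `ℓ`. -/
theorem rrl (hℓ : ¬ ℓ ∣ N) (hA : A.LiesOverPrime ℓ) :
    Plan.RRl A ((if ℓ = 2 then 9 else 4) * N) := by
  have hp : ℓ.Prime := Fact.out
  by_cases h : ℓ = 2
  · rw [if_pos h]
    refine rrl_nine ℓ N A (fun hd => ?_) hA
    rcases (Nat.Prime.dvd_mul hp).mp hd with h9 | hN
    · rw [h] at h9
      omega
    · exact hℓ hN
  · rw [if_neg h]
    refine rrl_four ℓ N A (fun hd => ?_) hA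
    rcases (Nat.Prime.dvd_mul hp).mp hd with h4 | hN
    · have h4' : ℓ ∣ 2 ^ 2 := by norm_num; exact h4
      exact h ((Nat.prime_dvd_prime_iff_eq hp Nat.prime_two).mp (hp.dvd_of_dvd_pow h4'))
    · exact hℓ hN

end Final

end Fermat.Agent.S18.RRl.Main
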