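import Mathlib
import Fermat.Agent.Lib.RRCoord
import Fermat.Agent.Lib.FFSep.Divisor

/-!
# S18 [RRl]: the degree identity `[F : K(j)] = deg Num · [F : K(t)]` for `j = Num(t) / Den(t)`

`K` algebraically closed, `F / K` a function field with two separating coordinates `t`, `j`
related by `j · Den(t) = Num(t)`, `Num`, `Den` coprime, `deg Den < deg Num`.  Summing the
pointwise pole identity `RRCoord.pole_eq` over all places, with
`∑ max 0 (-ord_Q x) = [F : K(x)]` and `deg div(Den(t)) = 0`, gives
`[F : K(j)] = deg Num · [F : K(t)]` (no Lüroth needed).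
-/

set_option autoImplicit false

noncomputable section

namespace Fermat.Agent.S18.RRl.CoordDegree

open AlgebraicCurve Polynomial IntermediateField

variable {K F : Type*} [Field K] [Field F] [Algebra K F]

/-- If `F` is finite over `K(j)` and contains a transcendental element, then `j` is
transcendental. -/
theorem transcendental_of_finiteDimensional {t j : F} [FiniteDimensional K⟮j⟯ F]
    (hxt : Transcendental K t) : Transcendental K j := by
  intro halg
  have h1 : FiniteDimensional K K⟮j⟯ := IntermediateField.adjoin.finiteDimensional halg.isIntegral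
  have h2 : FiniteDimensional K F := FiniteDimensional.trans K K⟮j⟯ F
  exact hxt (Algebra.IsAlgebraic.isAlgebraic t)

/-- The pole divisor of a separating coordinate `x` has degree `[F : K(x)]`, as a `finsum` over
all places. -/
theorem finsum_max_eq [IsAlgClosed K] {x : F} [FiniteDimensional K⟮x⟯ F]
    [Algebra.IsSeparable K⟮x⟯ F] (hxt : Transcendental K x) :
    ∑ᶠ Q : Place K F, max 0 (-Q.ord x) = (Module.finrank K⟮x⟯ F : ℤ) := by
  have hfin := Fermat.Agent.Lib.FFSep.finite_poles hxt
  have h := Fermat.Agent.Lib.FFSep.sum_ord_poles hxt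
  have h1 : ∑ᶠ Q : Place K F, max 0 (-Q.ord x)
      = ∑ᶠ Q ∈ {v : Place K F | v.ord x < 0}, -(Q.ord x) := by
    rw [finsum_mem_def]
    refine finsum_congr fun Q => ?_
    by_cases hQ : Q.ord x < 0
    · rw [Set.indicator_of_mem (show Q ∈ {v : Place K F | v.ord x < 0} from hQ),
        max_eq_right (by omega)]
    · rw [Set.indicator_of_notMem (show Q ∉ {v : Place K F | v.ord x < 0} from hQ),
        max_eq_left (by omega)]
  rw [h1, finsum_mem_neg_distrib _ hfin, h, neg_neg]

variable {t j : F} {Num Den : K[X]}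

/-- **Degree identity**, integer form. -/
theorem finrank_eq_int [IsAlgClosed K]
    [FiniteDimensional K⟮t⟯ F] [Algebra.IsSeparable K⟮t⟯ F]
    [FiniteDimensional K⟮j⟯ F] [Algebra.IsSeparable K⟮j⟯ F]
    (hxt : Transcendental K t)
    (hcop : IsCoprime Num Den) (hdeg : Den.natDegree < Num.natDegree)
    (hj : j * aeval t Den = aeval t Num) :
    (Module.finrank K⟮j⟯ F : ℤ) = Num.natDegree * Module.finrank K⟮t⟯ F := by
  have hjt : Transcendental K j := transcendental_of_finiteDimensional hxt
  have hden0 := Fermat.Agent.Lib.RRCoord.aeval_den_ne_zero hcop hj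
  have h1 := finsum_max_eq hjt
  have h2 := finsum_max_eq hxt
  have h3 := Fermat.Agent.Lib.FFSep.sum_ord_eq_zero hxt hden0
  have hpt : ∀ Q : Place K F,
      max 0 (-Q.ord j) = Num.natDegree * max 0 (-Q.ord t) + Q.ord (aeval t Den) :=
    Fermat.Agent.Lib.RRCoord.pole_eq hcop hdeg hj
  have hs0 : (Function.support fun Q : Place K F => max 0 (-Q.ord t)).Finite := by
    refine (Fermat.Agent.Lib.FFSep.finite_poles hxt).subset ?_
    intro Q hQ
    show Q.ord t < 0
    by_contra hnn
    exact hQ (max_eq_left (by omega))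
  have hs1 : (Function.support fun Q : Place K F =>
      (Num.natDegree : ℤ) * max 0 (-Q.ord t)).Finite := by
    refine hs0.subset ?_
    intro Q hQ hQ0
    apply hQ
    show (Num.natDegree : ℤ) * max 0 (-Q.ord t) = 0
    rw [show max 0 (-Q.ord t) = 0 from hQ0, mul_zero]
  have hs2 := Fermat.Agent.Lib.FFSep.finite_support_ord hxt (aeval t Den)
  rw [← h1, finsum_congr hpt, finsum_add_distrib hs1 hs2, h3, add_zero, ← mul_finsum, h2]

/-- **Degree identity**: `[F : K(j)] = deg Num · [F : K(t)]` for `j = Num(t) / Den(t)`. -/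
theorem finrank_eq [IsAlgClosed K]
    [FiniteDimensional K⟮t⟯ F] [Algebra.IsSeparable K⟮t⟯ F]
    [FiniteDimensional K⟮j⟯ F] [Algebra.IsSeparable K⟮j⟯ F]
    (hxt : Transcendental K t)
    (hcop : IsCoprime Num Den) (hdeg : Den.natDegree < Num.natDegree)
    (hj : j * aeval t Den = aeval t Num) :
    Module.finrank K⟮j⟯ F = Num.natDegree * Module.finrank K⟮t⟯ F := by
  have h := finrank_eq_int (F := F) hxt hcop hdeg hj
  exact_mod_cast h

end Fermat.Agent.S18.RRl.CoordDegree
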