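import Mathlib
import Fermat.Agent.Lib.RRCoord
import Fermat.Agent.Lib.DedekindWeber.Genus
import Fermat.Agent.S18.RRl.CoreP
import Fermat.Agent.S18.RRl.CoordDegree

/-!
# S18 [RRl]: transfer of the chart from `j` to `t`, and the genus bound with hypotheses at `j`

`F / K` a function field, `j = Num(t) / Den(t)` with `Num`, `Den` coprime.  Then
`K(j) ⊆ K(t)`, so `F / K(t)` is finite (separable) as soon as `F / K(j)` is, and `t` is
transcendental as soon as `j` is.  Combining `CoreP.core_le`, the Dedekind–Weber genus bound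
(`DedekindWeber.exists_exponents_genus_le`) and the degree identity
`[F : K(j)] = deg Num · [F : K(t)]` gives `core_j`: the bound for `dim L(c (j)_∞)` with all
hypotheses on the coordinate `j` only.
-/

set_option autoImplicit false

noncomputable section

namespace Fermat.Agent.S18.RRl.ChartTransfer

open AlgebraicCurve Polynomial IntermediateField

variable {K F : Type*} [Field K] [Field F] [Algebra K F]

/-! ### Towers of intermediate fields -/

/-- `F` is finite over the larger of two intermediate fields if it is over the smaller. -/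
theorem finiteDimensional_of_le {E E' : IntermediateField K F} (h : E ≤ E')
    [FiniteDimensional E F] : FiniteDimensional E' F := by
  let _ : Algebra E E' := (IntermediateField.inclusion h).toRingHom.toAlgebra
  have : IsScalarTower E E' F := IsScalarTower.of_algebraMap_eq fun _ => rfl
  exact Module.Finite.of_restrictScalars_finite E E' F

/-- `F` is separable over the larger of two intermediate fields if it is over the smaller. -/
theorem isSeparable_of_le {E E' : IntermediateField K F} (h : E ≤ E')
    [Algebra.IsSeparable E F] : Algebra.IsSeparable E' F := by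
  let _ : Algebra E E' := (IntermediateField.inclusion h).toRingHom.toAlgebra
  have : IsScalarTower E E' F := IsScalarTower.of_algebraMap_eq fun _ => rfl
  exact Algebra.isSeparable_tower_top_of_isSeparable E E' F

/-- Polynomial expressions in `t` lie in `K(t)`. -/
theorem aeval_mem_adjoin (t : F) (p : K[X]) : aeval t p ∈ K⟮t⟯ :=
  IntermediateField.algebra_adjoin_le_adjoin K {t} (aeval_mem_adjoin_singleton K t)

variable {t j : F} {Num Den : K[X]}

/-- **(T1)** `K(j) ⊆ K(t)` for `j = Num(t) / Den(t)`. -/
theorem mem_adjoin (hcop : IsCoprime Num Den) (hj : j * aeval t Den = aeval t Num) :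
    j ∈ K⟮t⟯ := by
  rw [Fermat.Agent.Lib.RRCoord.j_eq hcop hj]
  exact div_mem (aeval_mem_adjoin t Num) (aeval_mem_adjoin t Den)

theorem adjoin_le (hcop : IsCoprime Num Den) (hj : j * aeval t Den = aeval t Num) :
    K⟮j⟯ ≤ K⟮t⟯ := by
  rw [IntermediateField.adjoin_le_iff, Set.singleton_subset_iff]
  exact mem_adjoin hcop hj

/-- **(T2)** finiteness at `t` from finiteness at `j`. -/
theorem finiteDimensional_t [FiniteDimensional K⟮j⟯ F] (hcop : IsCoprime Num Den)
    (hj : j * aeval t Den = aeval t Num) : FiniteDimensional K⟮t⟯ F :=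
  finiteDimensional_of_le (adjoin_le hcop hj)

/-- **(T2)** separability at `t` from separability at `j`. -/
theorem isSeparable_t [Algebra.IsSeparable K⟮j⟯ F] (hcop : IsCoprime Num Den)
    (hj : j * aeval t Den = aeval t Num) : Algebra.IsSeparable K⟮t⟯ F :=
  isSeparable_of_le (adjoin_le hcop hj)

/-- **(T3)** `t` is transcendental if `j = Num(t) / Den(t)` is. -/
theorem transcendental_t (hjt : Transcendental K j) (hcop : IsCoprime Num Den)
    (hj : j * aeval t Den = aeval t Num) : Transcendental K t := by
  intro halg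
  apply hjt
  have : Algebra.IsAlgebraic K K⟮t⟯ := IntermediateField.isAlgebraic_adjoin_simple halg.isIntegral
  have h1 : IsAlgebraic K (⟨j, mem_adjoin hcop hj⟩ : K⟮t⟯) := Algebra.IsAlgebraic.isAlgebraic _
  exact h1.algebraMap (A := F)

/-- **(T4) the genus bound with all hypotheses at `j`.**  `K` algebraically closed,
`F / K(j)` finite separable, `j = Num(t) / Den(t)` with `Den` split, `C` an upper bound for the
number of poles of `j`: for `c` large,
`2 μ · l(c (j)_∞) ≤ 2 c μ ψ + 2 ψ - (1 + #roots Den) ψ + μ C`, `μ = deg Num`, `ψ = [F : K(j)]`. -/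
theorem core_j [IsAlgClosed K] [DecidableEq K]
    [FiniteDimensional K⟮j⟯ F] [Algebra.IsSeparable K⟮j⟯ F]
    (hjt : Transcendental K j)
    (hcop : IsCoprime Num Den) (hdeg : Den.natDegree < Num.natDegree)
    (hj : j * aeval t Den = aeval t Num) (hsplit : Den.Splits)
    (C : ℕ) (hC : Nat.card {Q : Place K F // Q.ord j < 0} ≤ C) :
    ∃ c₀ : ℕ, ∀ c : ℕ, c₀ ≤ c → ∀ Dj : Divisor K F,
      (∀ Q : Place K F, Dj Q = c * max 0 (-Q.ord j)) →
      Module.Finite K (riemannRochSpace Dj) ∧
        2 * Num.natDegree * (Module.finrank K (riemannRochSpace Dj) : ℤ) ≤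
          2 * c * Num.natDegree * Module.finrank K⟮j⟯ F + 2 * Module.finrank K⟮j⟯ F
            - (1 + Den.roots.toFinset.card) * Module.finrank K⟮j⟯ F + Num.natDegree * C := by
  have : FiniteDimensional K⟮t⟯ F := finiteDimensional_t hcop hj
  have : Algebra.IsSeparable K⟮t⟯ F := isSeparable_t hcop hj
  have hxt : Transcendental K t := transcendental_t hjt hcop hj
  have hdisc : Fermat.Agent.S18.RRl.CoreP.DiscP K F t :=
    Fermat.Agent.Lib.DedekindWeber.exists_exponents_genus_le hxt
  obtain ⟨c₀, h⟩ := Fermat.Agent.S18.RRl.CoreP.core_le hxt hdisc hcop hdeg hj hsplit C hC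
  have hdegree := Fermat.Agent.S18.RRl.CoordDegree.finrank_eq_int (F := F) hxt hcop hdeg hj
  refine ⟨c₀, fun c hc Dj hDj => ?_⟩
  obtain ⟨h1, h2⟩ := h c hc Dj hDj
  refine ⟨h1, ?_⟩
  rw [hdegree]
  have hμ : (0 : ℤ) ≤ Num.natDegree := Int.natCast_nonneg _
  nlinarith [mul_le_mul_of_nonneg_left h2 hμ]

end Fermat.Agent.S18.RRl.ChartTransfer
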