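import Mathlib
import Fermat.Prelude.Def_ModularCurve_X0ModL
import Fermat.Prelude.Def_ModularCurve_GenusNumerics
import Fermat.Agent.Lib.DedekindWeber.IntegralBasis
import Fermat.Agent.Lib.PlaceChart
import Fermat.Agent.S28.CruxDescent

/-!
# S18, block [RRl]: the genus bound in characteristic `ℓ` — contracts

Owner of the block: helper76.  Vocabulary and contracts (`def … : Prop`); the proofs live in the
other files of `Fermat/Agent/S18/RRl/`.

Everything is phrased with ring homs `φ : RatFunc κ → L` (no `Algebra (RatFunc κ) L` instance in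
any statement), because the same field `L` is an extension of `κ(X)` in two ways (`X ↦ j` and
`X ↦ t`).  The only currency for "points over a point of the line" is valuation subrings.
-/

set_option autoImplicit false

namespace Fermat.Agent.S18.RRl

open Polynomial ModularCurve Fermat.Agent.Lib.DedekindWeber

noncomputable section

/-! ### Generic vocabulary -/

section Generic

variable {κ : Type*} [Field κ] [DecidableEq (RatFunc κ)] {L : Type*} [Field L]

/-- `f` is integral over the image of `κ[X]` under `φ`. -/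
def IntFin (φ : RatFunc κ →+* L) (f : L) : Prop :=
  (φ.comp (algebraMap κ[X] (RatFunc κ))).IsIntegralElem f

/-- `f` is integral over the image under `φ` of the valuation ring at infinity of `κ(X)`. -/
def IntInf (φ : RatFunc κ →+* L) (f : L) : Prop :=
  (φ.comp (Oinf κ).subtype).IsIntegralElem f

/-- `L(c · (x)_∞)` for `x = φ X`, as a set: integral over `κ[x]`, and `x ^ (-c) f` integral over
the valuation ring at infinity. -/
def RRSet (φ : RatFunc κ →+* L) (c : ℤ) : Set L :=
  {f | IntFin φ f ∧ IntInf φ (φ RatFunc.X ^ (-c) * f)}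

/-- The valuation subrings of `L` over the point `x = a` of the line (`x = φ X`). -/
def ValsFin (φ : RatFunc κ →+* L) (a : κ) : Set (ValuationSubring L) :=
  {V | (∀ p : κ[X], φ (algebraMap κ[X] (RatFunc κ) p) ∈ V) ∧
    φ (RatFunc.X - RatFunc.C a) ∈ V.nonunits}

/-- The valuation subrings of `L` over the point `x = ∞` of the line. -/
def ValsInf (φ : RatFunc κ →+* L) : Set (ValuationSubring L) :=
  {V | (∀ f : Oinf κ, φ (f : RatFunc κ) ∈ V) ∧ (φ RatFunc.X)⁻¹ ∈ V.nonunits}

/-- The valuation subrings of `L` containing the constants at which `y` has a pole. -/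
def PoleVals (ι : κ →+* L) (y : L) : Set (ValuationSubring L) :=
  {V | (∀ a : κ, ι a ∈ V) ∧ y⁻¹ ∈ V.nonunits}

end Generic

/-! ### Generic contracts -/

/-- **[DISC]** Dedekind–Weber with the local discriminant bound, in valuation-subring form.
`L` finite separable over `κ(X)` (via `φ`), `κ` algebraically closed: the dimensions of the
spaces `RRSet φ c` are governed by exponents `δ`, and `2 ∑ δ` is at least the sum of
`n - #(points of L over p)` over any finite set of points `p` of the line and `p = ∞`. -/
def DiscStmt : Prop :=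
  ∀ (κ : Type) [Field κ] [IsAlgClosed κ] [DecidableEq (RatFunc κ)] (L : Type) [Field L]
    [Algebra κ L] (φ : RatFunc κ →ₐ[κ] L) (n : ℕ),
    (letI := φ.toRingHom.toAlgebra; FiniteDimensional (RatFunc κ) L) →
    (letI := φ.toRingHom.toAlgebra; Algebra.IsSeparable (RatFunc κ) L) →
    (letI := φ.toRingHom.toAlgebra; Module.finrank (RatFunc κ) L = n) →
    ∃ δ : Fin n → ℤ,
      (∀ c : ℤ, ∃ W : Submodule κ L, (W : Set L) = RRSet (φ : RatFunc κ →+* L) c ∧
        Module.Finite κ W ∧ Module.finrank κ W = ∑ i, (c - δ i + 1).toNat) ∧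
      ∀ S : Finset κ,
        (∑ a ∈ S, ((n : ℤ) - Nat.card (ValsFin (φ : RatFunc κ →+* L) a))) +
          ((n : ℤ) - Nat.card (ValsInf (φ : RatFunc κ →+* L))) ≤ 2 * ∑ i, δ i

/-- **[POLES] (1)** the points of `L` over the distinct finite poles of `r` (and over `∞` if `r`
has a pole there) are distinct poles of `φ r`. -/
def PolesDisjointStmt : Prop :=
  ∀ (κ : Type) [Field κ] [DecidableEq (RatFunc κ)] (L : Type) [Field L]
    (φ : RatFunc κ →+* L) (r : RatFunc κ) (S : Finset κ),
    (∀ a ∈ S, r.denom.IsRoot a) →
    (PoleVals (φ.comp (algebraMap κ (RatFunc κ))) (φ r)).Finite →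
    (∑ a ∈ S, Nat.card (ValsFin φ a)) +
        (if r.denom.natDegree < r.num.natDegree then Nat.card (ValsInf φ) else 0) ≤
      Nat.card (PoleVals (φ.comp (algebraMap κ (RatFunc κ))) (φ r))

/-- **[POLES] (2)** over an algebraically closed field, a rational function has at least as
many poles on the projective line as there are valuation subrings of `κ(X)` (containing `κ`) at
which it has a pole. -/
def PolesCountStmt : Prop :=
  ∀ (κ : Type) [Field κ] [IsAlgClosed κ] [DecidableEq κ] (r : RatFunc κ),
    Nat.card (PoleVals (algebraMap κ (RatFunc κ)) r) ≤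
      r.denom.roots.toFinset.card + (if r.denom.natDegree < r.num.natDegree then 1 else 0)

/-- **[AUX0b]** rationality from a dimension count.  `E ⊆ k((q))` a field, `j ∈ E` with a simple
pole in `q`, `E / k(j)` finite separable of degree `n ≥ 2`; `n` embeddings `ι x : E → k((u))`
(`u = q^(1/M)`) with `ι x j = j(u^M)`, one of them (`x₀`) being `q ↦ u^M`, satisfying the norm
formula; "Liouville": an element integral over `k[j]` with all `ι x y ∈ k[[u]]` is constant.
If some space of dimension `≥ n + 1` consists of elements integral over `k[j]` whose `ι x`-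
expansions have poles of order at most `M`, then `E = k(t)` for some `t`. -/
def Aux0bStmt : Prop :=
  ∀ (k : Type) [Field k] [IsAlgClosed k] (E : Type) [Field E] [Algebra k E]
    (inc : E →ₐ[k] LaurentSeries k) (j : E) (n M : ℕ) [NeZero M]
    (I : Type) [Fintype I] (ι : I → (E →ₐ[k] LaurentSeries k)) (x₀ : I)
    (V₁ : Submodule k E),
    (inc j).order = -1 → 2 ≤ n → Fintype.card I = n →
    FiniteDimensional (IntermediateField.adjoin k {j}) E →
    Algebra.IsSeparable (IntermediateField.adjoin k {j}) E →
    (∀ y, ι x₀ y = qExpand k M (inc y)) →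
    (∀ x, ι x j = qExpand k M (inc j)) →
    (∀ (y : E) (x' : I),
      ι x' (algebraMap (IntermediateField.adjoin k {j}) E
        (Algebra.norm (IntermediateField.adjoin k {j}) y)) = ∏ x, ι x y) →
    (∀ y : E, IsIntegral (Algebra.adjoin k {j}) y → (∀ x, y ≠ 0 → 0 ≤ (ι x y).order) →
      y ∈ (algebraMap k E).range) →
    (∀ y ∈ V₁, IsIntegral (Algebra.adjoin k {j}) y ∧ ∀ x, y ≠ 0 → -(M : ℤ) ≤ (ι x y).order) →
    Module.Finite k V₁ → n + 1 ≤ Module.finrank k V₁ →
    ∃ t : E, IntermediateField.adjoin k {t} = ⊤

/-! ### The modular function fields in characteristic `ℓ` -/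

section Modular

variable (k : Type) [Field k] (n : ℕ) [NeZero n]

/-- The function field of `X₀(n)` over `k`, as a type. -/
abbrev Fk : Type := ↥(modularFunctionFieldFullC k n)

/-- `j` in `Fk k n`. -/
def jk : Fk k n := ⟨jqModC k, jqModC_mem_full k n⟩

omit [NeZero n] in
theorem transcendental_jk : Transcendental k (jk k n) := by
  have h := Fermat.Agent.S28.CruxDescent.transcendental_jqModC k
  intro halg
  apply h
  obtain ⟨p, hp0, hp⟩ := halg
  refine ⟨p, hp0, ?_⟩
  have h2 := congrArg (Subtype.val : Fk k n → LaurentSeries k) hp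
  rw [← hp] at h2
  have h3 : ((Polynomial.aeval (jk k n) p : Fk k n) : LaurentSeries k)
      = Polynomial.aeval (jqModC k) p := by
    have := Polynomial.aeval_algHom_apply (IntermediateField.val (modularFunctionFieldFullC k n))
      (jk k n) p
    exact this.symm
  rw [← h3, hp]
  rfl

/-- The embedding `κ(X) → Fk k n`, `X ↦ j`. -/
def jHom : RatFunc k →ₐ[k] Fk k n :=
  Fermat.Agent.Lib.PlaceChart.ratEmb (jk k n) (transcendental_jk k n)

variable [DecidableEq (RatFunc k)]

/-- The cusps of `Fk k n`: the valuation subrings containing `k` at which `j` has a pole. -/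
def CuspVals : Set (ValuationSubring (Fk k n)) :=
  PoleVals (algebraMap k (Fk k n)) (jk k n)

/-- **[CUSP] (count)**, consumed at the levels `M` and `N'`. -/
def CuspCountStmt : Prop := Nat.card (CuspVals k n) = cuspCount n

/-- **[CUSP] (degree)**, consumed at the levels `M` and `N'`. -/
def CuspDegStmt : Prop :=
  Module.finrank (IntermediateField.adjoin k {jk k n}) (Fk k n) = dedekindPsi n ∧
    Algebra.IsSeparable (IntermediateField.adjoin k {jk k n}) (Fk k n)

/-- **[CUSP] (embeddings)**, consumed at the level `M`: the cusp embeddings `ι x` of `Fk k n`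
into `k((u))`, `u = q^(1/n)`, with the norm formula and exhaustion of the cusps. -/
def CuspEmbStmt : Prop :=
  ∃ (I : Type) (_ : Fintype I) (ι : I → (Fk k n →ₐ[k] LaurentSeries k)) (x₀ : I),
    Fintype.card I = dedekindPsi n ∧
    (∀ y : Fk k n, ι x₀ y = qExpand k n (y : LaurentSeries k)) ∧
    (∀ x, ι x (jk k n) = qExpand k n (jqModC k)) ∧
    (∀ (y : Fk k n) (x' : I),
      ι x' (algebraMap (IntermediateField.adjoin k {jk k n}) (Fk k n)
        (Algebra.norm (IntermediateField.adjoin k {jk k n}) y)) = ∏ x, ι x y) ∧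
    (∀ V ∈ CuspVals k n, ∃ x, ∀ y : Fk k n, y ∈ V ↔ (y = 0 ∨ 0 ≤ (ι x y).order))

/-- **[GEN0]**, consumed at the level `M`: a space of dimension `ψ(M) + 1` inside
`L((j)_∞)` (semicontinuity of `dim L(c (j)_∞)` under reduction + genus `0` in characteristic
`0`). -/
def Gen0Stmt : Prop :=
  ∃ V₁ : Submodule k (Fk k n), (V₁ : Set (Fk k n)) ⊆ RRSet (jHom k n : RatFunc k →+* Fk k n) 1 ∧
    Module.Finite k V₁ ∧ dedekindPsi n + 1 ≤ Module.finrank k V₁

/-- **[RRl]**, the target of the block, at level `n = N'`. -/
def RRlStmt : Prop :=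
  ∃ c₀ : ℕ, ∀ c : ℕ, c₀ ≤ c →
    ∃ W : Submodule k (Fk k n), (W : Set (Fk k n)) = RRSet (jHom k n : RatFunc k →+* Fk k n) c ∧
      Module.Finite k W ∧
      12 * (Module.finrank k W : ℤ) ≤ 12 * c * dedekindPsi n - dedekindPsi n + 6 * cuspCount n

end Modular

end

end Fermat.Agent.S18.RRl
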