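import Mathlib
import Fermat.Agent.Lib.DedekindWeber.IntegralBasis

/-!
# S18 [RRl] — leaf [POLES]: points of `κ(t)` and the poles of a rational function

Generic statements about valuation subrings of `RatFunc κ` containing the constants, and
about valuation subrings of an extension `L` of `RatFunc κ`:

* (P1) a valuation subring `V ≠ ⊤` of `RatFunc κ` containing `κ` (`κ` algebraically closed) has
  a *point*: either a unique `a : κ` with `X - C a ∈ V.nonunits`, or `X⁻¹ ∈ V.nonunits`;
  and `V` is determined by its point;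
* (P2) `r⁻¹ ∈ V.nonunits` iff the point of `V` is a root of `r.denom`, resp. (point at
  infinity) iff `r.denom.natDegree < r.num.natDegree`; hence the number of such `V` is at most
  the number of poles of `r` on the projective line;
* (P3) for an extension `L`: the sets of valuation subrings of `L` over the poles of `r` are
  pairwise disjoint subsets of the set of valuation subrings of `L` at which `r` has a pole.
-/

namespace Fermat.Agent.S18.RRl.Poles

open Polynomial

/-! ### Valuation of polynomials at a point -/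

section RatFuncCase

variable {κ : Type*} [Field κ]

/-- the constants are contained in `V` -/
def ContainsConst (V : ValuationSubring (RatFunc κ)) : Prop :=
  ∀ a : κ, algebraMap κ (RatFunc κ) a ∈ V

/-- `V` has the finite point `a` -/
def HasPoint (V : ValuationSubring (RatFunc κ)) (a : κ) : Prop :=
  algebraMap κ[X] (RatFunc κ) (X - C a) ∈ V.nonunits

/-- `V` has the point at infinity -/
def HasPointInfty (V : ValuationSubring (RatFunc κ)) : Prop :=
  (RatFunc.X : RatFunc κ)⁻¹ ∈ V.nonunits

variable {V : ValuationSubring (RatFunc κ)}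

theorem algebraMap_C_eq (a : κ) :
    algebraMap κ[X] (RatFunc κ) (C a) = algebraMap κ (RatFunc κ) a :=
  RatFunc.algebraMap_C a

theorem valuation_const (hκ : ContainsConst V) {a : κ} (ha : a ≠ 0) :
    V.valuation (algebraMap κ (RatFunc κ) a) = 1 := by
  have h1 : V.valuation (algebraMap κ (RatFunc κ) a) ≤ 1 := (V.valuation_le_one_iff _).mpr (hκ a)
  have h2 : V.valuation (algebraMap κ (RatFunc κ) a⁻¹) ≤ 1 :=
    (V.valuation_le_one_iff _).mpr (hκ a⁻¹)
  have hne : algebraMap κ (RatFunc κ) a ≠ 0 := by
    rw [Ne, map_eq_zero]; exact ha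
  have hpos : 0 < V.valuation (algebraMap κ (RatFunc κ) a) := by
    rw [Valuation.pos_iff]; exact hne
  rw [map_inv₀, map_inv₀, inv_le_one₀ hpos] at h2
  exact le_antisymm h1 h2

theorem valuation_C (hκ : ContainsConst V) {a : κ} (ha : a ≠ 0) :
    V.valuation (algebraMap κ[X] (RatFunc κ) (C a)) = 1 := by
  rw [algebraMap_C_eq]; exact valuation_const hκ ha

/-- if `X ∈ V` then all polynomials are in `V` -/
theorem poly_mem (hκ : ContainsConst V) (hX : (RatFunc.X : RatFunc κ) ∈ V) (p : κ[X]) :
    algebraMap κ[X] (RatFunc κ) p ∈ V := by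
  induction p using Polynomial.induction_on with
  | C a => rw [algebraMap_C_eq]; exact hκ a
  | add p q hp hq => rw [map_add]; exact V.add_mem _ _ hp hq
  | monomial n a h =>
    have e : (C a * X ^ (n + 1) : κ[X]) = (C a * X ^ n) * X := by ring
    rw [e, map_mul, RatFunc.algebraMap_X]
    exact V.mul_mem _ _ h hX

theorem HasPoint.X_mem (hκ : ContainsConst V) {a : κ} (h : HasPoint V a) :
    (RatFunc.X : RatFunc κ) ∈ V := by
  have h1 : algebraMap κ[X] (RatFunc κ) (X - C a) ∈ V := by
    rw [← V.valuation_le_one_iff]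
    exact (V.mem_nonunits_iff.mp h).le
  have h2 : (RatFunc.X : RatFunc κ)
      = algebraMap κ[X] (RatFunc κ) (X - C a) + algebraMap κ (RatFunc κ) a := by
    rw [map_sub, RatFunc.algebraMap_X, algebraMap_C_eq]; ring
  rw [h2]
  exact V.add_mem _ _ h1 (hκ a)

theorem HasPoint.valuation_lt_one {a : κ} (h : HasPoint V a) :
    V.valuation (algebraMap κ[X] (RatFunc κ) (X - C a)) < 1 :=
  V.mem_nonunits_iff.mp h

theorem HasPoint.valuation_pos {a : κ} (_h : HasPoint V a) :
    0 < V.valuation (algebraMap κ[X] (RatFunc κ) (X - C a)) := by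
  rw [Valuation.pos_iff, Ne, map_eq_zero_iff _ (IsFractionRing.injective κ[X] (RatFunc κ))]
  exact X_sub_C_ne_zero a

/-- a polynomial not vanishing at the point is a unit at the point -/
theorem HasPoint.valuation_of_eval_ne_zero (hκ : ContainsConst V) {a : κ} (h : HasPoint V a)
    {p : κ[X]} (hp : p.eval a ≠ 0) : V.valuation (algebraMap κ[X] (RatFunc κ) p) = 1 := by
  have e : p = C (p.eval a) + (X - C a) * (p /ₘ (X - C a)) := by
    have := Polynomial.modByMonic_add_div p (X - C a)
    rw [Polynomial.modByMonic_X_sub_C_eq_C_eval] at this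
    exact this.symm
  have h1 : V.valuation (algebraMap κ[X] (RatFunc κ) ((X - C a) * (p /ₘ (X - C a)))) < 1 := by
    rw [map_mul, map_mul]
    have h2 : V.valuation (algebraMap κ[X] (RatFunc κ) (p /ₘ (X - C a))) ≤ 1 :=
      (V.valuation_le_one_iff _).mpr (poly_mem hκ (h.X_mem hκ) _)
    calc _ ≤ V.valuation (algebraMap κ[X] (RatFunc κ) (X - C a)) * 1 :=
          mul_le_mul_right h2 _
      _ = _ := mul_one _
      _ < 1 := h.valuation_lt_one
  rw [e, map_add, Valuation.map_add_eq_of_lt_left, valuation_C hκ hp]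
  rw [valuation_C hκ hp]
  exact h1

/-- valuation of a polynomial at a finite point -/
theorem HasPoint.valuation_poly (hκ : ContainsConst V) {a : κ} (h : HasPoint V a)
    {p : κ[X]} (hp : p ≠ 0) :
    V.valuation (algebraMap κ[X] (RatFunc κ) p)
      = V.valuation (algebraMap κ[X] (RatFunc κ) (X - C a)) ^ p.rootMultiplicity a := by
  obtain ⟨q, hq1, hq2⟩ := Polynomial.exists_eq_pow_rootMultiplicity_mul_and_not_dvd p hp a
  have hq3 : q.eval a ≠ 0 := by
    intro h0
    exact hq2 (Polynomial.dvd_iff_isRoot.mpr h0)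
  conv_lhs => rw [hq1]
  rw [map_mul, map_mul, map_pow, map_pow, h.valuation_of_eval_ne_zero hκ hq3, mul_one]

theorem HasPointInfty.one_lt_valuation_X (h : HasPointInfty V) :
    1 < V.valuation (RatFunc.X : RatFunc κ) := by
  have h1 : V.valuation ((RatFunc.X : RatFunc κ)⁻¹) < 1 := V.mem_nonunits_iff.mp h
  have hpos : 0 < V.valuation (RatFunc.X : RatFunc κ) := by
    rw [Valuation.pos_iff]; exact RatFunc.X_ne_zero
  rwa [map_inv₀, inv_lt_one₀ hpos] at h1

theorem HasPointInfty.valuation_poly_le (hκ : ContainsConst V) (h : HasPointInfty V) (q : κ[X])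
    (n : ℕ) (hq : q.natDegree ≤ n) :
    V.valuation (algebraMap κ[X] (RatFunc κ) q) ≤ V.valuation (RatFunc.X : RatFunc κ) ^ n := by
  rw [q.as_sum_range, map_sum]
  apply Valuation.map_sum_le
  intro i hi
  rw [Finset.mem_range] at hi
  rw [← C_mul_X_pow_eq_monomial, map_mul, map_mul, map_pow, map_pow, RatFunc.algebraMap_X]
  have h1 : V.valuation (algebraMap κ[X] (RatFunc κ) (C (q.coeff i))) ≤ 1 :=
    (V.valuation_le_one_iff _).mpr (by rw [algebraMap_C_eq]; exact hκ _)
  calc _ ≤ 1 * V.valuation (RatFunc.X : RatFunc κ) ^ i := mul_le_mul_left h1 _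
    _ = V.valuation (RatFunc.X : RatFunc κ) ^ i := one_mul _
    _ ≤ V.valuation (RatFunc.X : RatFunc κ) ^ n :=
      pow_le_pow_right₀ h.one_lt_valuation_X.le (by omega)

/-- valuation of a polynomial at the point at infinity -/
theorem HasPointInfty.valuation_poly (hκ : ContainsConst V) (h : HasPointInfty V) {p : κ[X]}
    (hp : p ≠ 0) :
    V.valuation (algebraMap κ[X] (RatFunc κ) p)
      = V.valuation (RatFunc.X : RatFunc κ) ^ p.natDegree := by
  have hlc : p.leadingCoeff ≠ 0 := leadingCoeff_ne_zero.mpr hp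
  have e : p = C p.leadingCoeff * X ^ p.natDegree + p.eraseLead := by
    rw [C_mul_X_pow_eq_monomial, add_comm]
    exact (eraseLead_add_monomial_natDegree_leadingCoeff p).symm
  have h1 : V.valuation (algebraMap κ[X] (RatFunc κ) (C p.leadingCoeff * X ^ p.natDegree))
      = V.valuation (RatFunc.X : RatFunc κ) ^ p.natDegree := by
    rw [map_mul, map_mul, map_pow, map_pow, RatFunc.algebraMap_X, valuation_C hκ hlc, one_mul]
  have h2 : V.valuation (algebraMap κ[X] (RatFunc κ) p.eraseLead)
      < V.valuation (RatFunc.X : RatFunc κ) ^ p.natDegree := by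
    rcases Nat.eq_zero_or_pos p.natDegree with h0 | hpos
    · have hc : p.eraseLead = 0 := by
        rw [eq_C_of_natDegree_eq_zero h0, eraseLead_C]
      rw [hc, map_zero, map_zero, h0, pow_zero]
      exact zero_lt_one
    · calc _ ≤ V.valuation (RatFunc.X : RatFunc κ) ^ (p.natDegree - 1) :=
            h.valuation_poly_le hκ _ _ (eraseLead_natDegree_le p)
        _ < _ := pow_lt_pow_right₀ h.one_lt_valuation_X (by omega)
  conv_lhs => rw [e]
  rw [map_add, Valuation.map_add_eq_of_lt_left, h1]
  rw [h1]
  exact h2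

theorem algebraMap_poly_ne_zero {p : κ[X]} (hp : p ≠ 0) : algebraMap κ[X] (RatFunc κ) p ≠ 0 := by
  rw [Ne, map_eq_zero_iff _ (IsFractionRing.injective κ[X] (RatFunc κ))]
  exact hp

theorem valuation_poly_pos (V : ValuationSubring (RatFunc κ)) {p : κ[X]} (hp : p ≠ 0) :
    0 < V.valuation (algebraMap κ[X] (RatFunc κ) p) := by
  rw [Valuation.pos_iff]; exact algebraMap_poly_ne_zero hp

/-- membership of a nonzero rational function in `V`, via numerator and denominator -/
theorem mem_iff_valuation_num_le (V : ValuationSubring (RatFunc κ)) (f : RatFunc κ) :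
    f ∈ V ↔ V.valuation (algebraMap κ[X] (RatFunc κ) f.num)
      ≤ V.valuation (algebraMap κ[X] (RatFunc κ) f.denom) := by
  conv_lhs => rw [← RatFunc.num_div_denom f]
  rw [← V.valuation_le_one_iff, map_div₀,
    div_le_one₀ (valuation_poly_pos V (RatFunc.denom_ne_zero f))]

/-- membership in `V` in terms of the order of vanishing at the finite point of `V` -/
theorem HasPoint.mem_iff (hκ : ContainsConst V) {a : κ} (h : HasPoint V a) {f : RatFunc κ}
    (hf : f ≠ 0) : f ∈ V ↔ f.denom.rootMultiplicity a ≤ f.num.rootMultiplicity a := by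
  rw [mem_iff_valuation_num_le, h.valuation_poly hκ (RatFunc.num_ne_zero hf),
    h.valuation_poly hκ (RatFunc.denom_ne_zero f),
    pow_le_pow_iff_right_of_lt_one₀ h.valuation_pos h.valuation_lt_one]

/-- membership in `V` in terms of degrees, at the point at infinity -/
theorem HasPointInfty.mem_iff (hκ : ContainsConst V) (h : HasPointInfty V) {f : RatFunc κ}
    (hf : f ≠ 0) : f ∈ V ↔ f.num.natDegree ≤ f.denom.natDegree := by
  rw [mem_iff_valuation_num_le, h.valuation_poly hκ (RatFunc.num_ne_zero hf),
    h.valuation_poly hκ (RatFunc.denom_ne_zero f), pow_le_pow_iff_right₀ h.one_lt_valuation_X]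

/-- **(P1, uniqueness)** a valuation subring containing the constants is determined by its
finite point -/
theorem HasPoint.eq {V' : ValuationSubring (RatFunc κ)} (hκ : ContainsConst V)
    (hκ' : ContainsConst V') {a : κ} (h : HasPoint V a) (h' : HasPoint V' a) : V = V' := by
  ext f
  rcases eq_or_ne f 0 with rfl | hf
  · exact ⟨fun _ => V'.zero_mem, fun _ => V.zero_mem⟩
  · rw [h.mem_iff hκ hf, h'.mem_iff hκ' hf]

/-- **(P1, uniqueness)** a valuation subring containing the constants with the point at
infinity is unique -/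
theorem HasPointInfty.eq {V' : ValuationSubring (RatFunc κ)} (hκ : ContainsConst V)
    (hκ' : ContainsConst V') (h : HasPointInfty V) (h' : HasPointInfty V') : V = V' := by
  ext f
  rcases eq_or_ne f 0 with rfl | hf
  · exact ⟨fun _ => V'.zero_mem, fun _ => V.zero_mem⟩
  · rw [h.mem_iff hκ hf, h'.mem_iff hκ' hf]

/-- **(P1)** the finite point of `V` is unique -/
theorem HasPoint.unique (hκ : ContainsConst V) {a b : κ} (h : HasPoint V a) (h' : HasPoint V b) :
    a = b := by
  by_contra hab
  have h1 : algebraMap κ[X] (RatFunc κ) (X - C a) - algebraMap κ[X] (RatFunc κ) (X - C b)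
      ∈ V.nonunits := V.nonunits.sub_mem h h'
  have e : algebraMap κ[X] (RatFunc κ) (X - C a) - algebraMap κ[X] (RatFunc κ) (X - C b)
      = algebraMap κ (RatFunc κ) (b - a) := by
    rw [map_sub, map_sub, algebraMap_C_eq, algebraMap_C_eq, map_sub]; ring
  rw [e] at h1
  have h2 := valuation_const hκ (sub_ne_zero.mpr (Ne.symm hab))
  have h3 := V.mem_nonunits_iff.mp h1
  rw [h2] at h3
  exact lt_irrefl _ h3

/-- **(P1)** a finite point and the point at infinity exclude each other -/
theorem HasPoint.not_hasPointInfty (hκ : ContainsConst V) {a : κ} (h : HasPoint V a) :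
    ¬ HasPointInfty V := by
  intro h'
  have h1 := h'.one_lt_valuation_X
  have h2 : V.valuation (RatFunc.X : RatFunc κ) ≤ 1 := (V.valuation_le_one_iff _).mpr (h.X_mem hκ)
  exact not_le.mpr h1 h2

/-- a polynomial of valuation `< 1` has a root at the point of `V` -/
theorem exists_root_hasPoint [IsAlgClosed κ] (hκ : ContainsConst V)
    (hX : (RatFunc.X : RatFunc κ) ∈ V) :
    ∀ (n : ℕ) (q : κ[X]), q.natDegree = n → q ≠ 0 →
      V.valuation (algebraMap κ[X] (RatFunc κ) q) < 1 → ∃ a, q.IsRoot a ∧ HasPoint V a := by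
  intro n
  induction n with
  | zero =>
    intro q hn hq hv
    exfalso
    rw [eq_C_of_natDegree_eq_zero hn] at hv hq
    have hc : q.coeff 0 ≠ 0 := by
      intro h0; apply hq; rw [h0, C_0]
    rw [valuation_C hκ hc] at hv
    exact lt_irrefl _ hv
  | succ n ih =>
    intro q hn hq hv
    obtain ⟨a, ha⟩ := IsAlgClosed.exists_root q (by
      rw [degree_eq_natDegree hq, hn]; exact_mod_cast Nat.succ_ne_zero n)
    obtain ⟨q1, rfl⟩ := dvd_iff_isRoot.mpr ha
    by_cases h1 : V.valuation (algebraMap κ[X] (RatFunc κ) (X - C a)) < 1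
    · exact ⟨a, ha, h1⟩
    · have hq1 : q1 ≠ 0 := right_ne_zero_of_mul hq
      have hdeg : q1.natDegree = n := by
        rw [natDegree_mul (X_sub_C_ne_zero a) hq1, natDegree_X_sub_C] at hn; omega
      have h2 : V.valuation (algebraMap κ[X] (RatFunc κ) (X - C a)) = 1 :=
        le_antisymm ((V.valuation_le_one_iff _).mpr (poly_mem hκ hX _)) (not_lt.mp h1)
      have hv1 : V.valuation (algebraMap κ[X] (RatFunc κ) q1) < 1 := by
        rw [map_mul, map_mul, h2, one_mul] at hv
        exact hv
      obtain ⟨b, hb, hb'⟩ := ih q1 hdeg hq1 hv1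
      refine ⟨b, ?_, hb'⟩
      rw [IsRoot, eval_mul, hb.eq_zero, mul_zero]

/-- **(P1, existence)** over an algebraically closed field, every valuation subring `V ≠ ⊤` of
`κ(X)` containing the constants has a point -/
theorem exists_point [IsAlgClosed κ] (hκ : ContainsConst V) (hV : V ≠ ⊤) :
    (∃ a, HasPoint V a) ∨ HasPointInfty V := by
  by_cases hX : (RatFunc.X : RatFunc κ) ∈ V
  · left
    obtain ⟨f, hf⟩ : ∃ f, f ∉ V := by
      by_contra hall
      exact hV (SetLike.ext fun x => ⟨fun _ => ValuationSubring.mem_top x,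
        fun _ => by_contra fun hx => hall ⟨x, hx⟩⟩)
    rw [mem_iff_valuation_num_le, not_le] at hf
    have h2 := lt_of_lt_of_le hf ((V.valuation_le_one_iff _).mpr (poly_mem hκ hX _))
    obtain ⟨a, -, ha⟩ := exists_root_hasPoint hκ hX _ _ rfl (RatFunc.denom_ne_zero f) h2
    exact ⟨a, ha⟩
  · right
    rw [HasPointInfty, V.mem_nonunits_iff_or, inv_inv]
    exact Or.inr hX

theorem not_isRoot_num_of_isRoot_denom (r : RatFunc κ) {a : κ} (ha : r.denom.IsRoot a) :
    r.num.eval a ≠ 0 := by
  intro h0
  obtain ⟨u, w, huw⟩ := RatFunc.isCoprime_num_denom r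
  have := congrArg (Polynomial.eval a) huw
  rw [eval_add, eval_mul, eval_mul, h0, ha.eq_zero, mul_zero, mul_zero, add_zero, eval_one]
    at this
  exact zero_ne_one this

theorem inv_eq_denom_div_num (r : RatFunc κ) :
    r⁻¹ = algebraMap κ[X] (RatFunc κ) r.denom / algebraMap κ[X] (RatFunc κ) r.num := by
  conv_lhs => rw [← RatFunc.num_div_denom r]
  rw [inv_div]

/-- **(P2)** at a finite point `a`: `r` has a pole at `V` iff `a` is a root of `r.denom` -/
theorem HasPoint.inv_mem_nonunits_iff (hκ : ContainsConst V) {a : κ} (h : HasPoint V a)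
    {r : RatFunc κ} (hr : r ≠ 0) : r⁻¹ ∈ V.nonunits ↔ r.denom.IsRoot a := by
  rw [V.mem_nonunits_iff, inv_eq_denom_div_num, map_div₀,
    div_lt_one₀ (valuation_poly_pos V (RatFunc.num_ne_zero hr))]
  constructor
  · intro hlt
    by_contra hroot
    rw [h.valuation_of_eval_ne_zero hκ hroot] at hlt
    exact not_le.mpr hlt ((V.valuation_le_one_iff _).mpr (poly_mem hκ (h.X_mem hκ) _))
  · intro hroot
    rw [h.valuation_of_eval_ne_zero hκ (not_isRoot_num_of_isRoot_denom r hroot),
      h.valuation_poly hκ (RatFunc.denom_ne_zero r)]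
    have hm : 0 < r.denom.rootMultiplicity a :=
      (Polynomial.rootMultiplicity_pos (RatFunc.denom_ne_zero r)).mpr hroot
    calc _ ≤ V.valuation (algebraMap κ[X] (RatFunc κ) (X - C a)) ^ 1 :=
          pow_le_pow_of_le_one h.valuation_pos.le h.valuation_lt_one.le hm
      _ = _ := pow_one _
      _ < 1 := h.valuation_lt_one

/-- **(P2)** at the point at infinity: `r` has a pole at `V` iff `deg denom < deg num` -/
theorem HasPointInfty.inv_mem_nonunits_iff (hκ : ContainsConst V) (h : HasPointInfty V)
    {r : RatFunc κ} (hr : r ≠ 0) : r⁻¹ ∈ V.nonunits ↔ r.denom.natDegree < r.num.natDegree := by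
  rw [V.mem_nonunits_iff, inv_eq_denom_div_num, map_div₀,
    div_lt_one₀ (valuation_poly_pos V (RatFunc.num_ne_zero hr)),
    h.valuation_poly hκ (RatFunc.num_ne_zero hr), h.valuation_poly hκ (RatFunc.denom_ne_zero r),
    pow_lt_pow_iff_right₀ h.one_lt_valuation_X]

theorem ne_top_of_inv_mem_nonunits {r : RatFunc κ} (hr : r ≠ 0) (h : r⁻¹ ∈ V.nonunits) :
    V ≠ ⊤ := by
  rintro rfl
  rw [ValuationSubring.mem_nonunits_iff_or] at h
  rcases h with h | h
  · exact hr (inv_eq_zero.mp h)
  · exact h (ValuationSubring.mem_top _)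

/-! ### Counting the poles of `r` on the projective line -/

/-- the poles of `r` on the projective line (`none` = the point at infinity) -/
noncomputable def poleFinset [DecidableEq κ] (r : RatFunc κ) : Finset (Option κ) :=
  r.denom.roots.toFinset.image some ∪ (if r.denom.natDegree < r.num.natDegree then {none} else ∅)

theorem some_mem_poleFinset [DecidableEq κ] (r : RatFunc κ) (a : κ) :
    some a ∈ poleFinset r ↔ r.denom.IsRoot a := by
  unfold poleFinset
  rw [Finset.mem_union, Finset.mem_image]
  constructor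
  · rintro (⟨b, hb, hba⟩ | h)
    · rw [Option.some.injEq] at hba
      subst hba
      rw [Multiset.mem_toFinset] at hb
      exact (Polynomial.mem_roots (RatFunc.denom_ne_zero r)).mp hb
    · exfalso
      split_ifs at h
      · rw [Finset.mem_singleton] at h
        exact Option.some_ne_none a h
      · exact Finset.notMem_empty _ h
  · intro h
    refine Or.inl ⟨a, ?_, rfl⟩
    rw [Multiset.mem_toFinset]
    exact (Polynomial.mem_roots (RatFunc.denom_ne_zero r)).mpr h

theorem none_mem_poleFinset [DecidableEq κ] (r : RatFunc κ) :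
    none ∈ poleFinset r ↔ r.denom.natDegree < r.num.natDegree := by
  unfold poleFinset
  rw [Finset.mem_union, Finset.mem_image]
  constructor
  · rintro (⟨b, -, hb⟩ | h)
    · exact absurd hb (Option.some_ne_none b)
    · by_contra hdeg
      rw [if_neg hdeg] at h
      exact Finset.notMem_empty _ h
  · intro h
    refine Or.inr ?_
    rw [if_pos h]
    exact Finset.mem_singleton_self _

theorem card_poleFinset [DecidableEq κ] (r : RatFunc κ) :
    (poleFinset r).card = r.denom.roots.toFinset.card
      + (if r.denom.natDegree < r.num.natDegree then 1 else 0) := by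
  unfold poleFinset
  rw [Finset.card_union_of_disjoint, Finset.card_image_of_injective _ (Option.some_injective κ)]
  · split_ifs <;> simp
  · rw [Finset.disjoint_left]
    intro o ho ho'
    rw [Finset.mem_image] at ho
    obtain ⟨b, -, rfl⟩ := ho
    split_ifs at ho'
    · rw [Finset.mem_singleton] at ho'
      exact Option.some_ne_none b ho'
    · exact Finset.notMem_empty _ ho'

open Classical in
/-- the point of `V`, as an element of `Option κ` (`none` = the point at infinity; junk value
`none` if `V` has no point) -/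
noncomputable def point (V : ValuationSubring (RatFunc κ)) : Option κ :=
  if h : ∃ a, HasPoint V a then some h.choose else none

theorem point_eq_some (hκ : ContainsConst V) {a : κ} (h : HasPoint V a) : point V = some a := by
  have hex : ∃ a, HasPoint V a := ⟨a, h⟩
  unfold point
  rw [dif_pos hex]
  exact congrArg some (HasPoint.unique hκ hex.choose_spec h)

theorem point_eq_none (hκ : ContainsConst V) (h : HasPointInfty V) : point V = none := by
  unfold point
  rw [dif_neg]
  rintro ⟨a, ha⟩
  exact ha.not_hasPointInfty hκ h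

/-- **(P2)** the point of a pole of `r` is a pole of `r` on the projective line -/
theorem point_mem_poleFinset [IsAlgClosed κ] [DecidableEq κ] (hκ : ContainsConst V)
    {r : RatFunc κ} (hr : r ≠ 0) (h : r⁻¹ ∈ V.nonunits) : point V ∈ poleFinset r := by
  rcases exists_point hκ (ne_top_of_inv_mem_nonunits hr h) with ⟨a, ha⟩ | hinf
  · rw [point_eq_some hκ ha, some_mem_poleFinset]
    exact (ha.inv_mem_nonunits_iff hκ hr).mp h
  · rw [point_eq_none hκ hinf, none_mem_poleFinset]
    exact (hinf.inv_mem_nonunits_iff hκ hr).mp h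

/-- **(P1)** a valuation subring `≠ ⊤` containing the constants is determined by its point -/
theorem eq_of_point_eq [IsAlgClosed κ] {V' : ValuationSubring (RatFunc κ)}
    (hκ : ContainsConst V) (hκ' : ContainsConst V') (hV : V ≠ ⊤) (hV' : V' ≠ ⊤)
    (h : point V = point V') : V = V' := by
  rcases exists_point hκ hV with ⟨a, ha⟩ | hinf
  · rcases exists_point hκ' hV' with ⟨b, hb⟩ | hinf'
    · rw [point_eq_some hκ ha, point_eq_some hκ' hb, Option.some.injEq] at h
      subst h
      exact HasPoint.eq hκ hκ' ha hb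
    · rw [point_eq_some hκ ha, point_eq_none hκ' hinf'] at h
      exact absurd h (Option.some_ne_none a)
  · rcases exists_point hκ' hV' with ⟨b, hb⟩ | hinf'
    · rw [point_eq_none hκ hinf, point_eq_some hκ' hb] at h
      exact absurd h.symm (Option.some_ne_none b)
    · exact HasPointInfty.eq hκ hκ' hinf hinf'

/-- **(P2)** the valuation subrings of `κ(X)` containing `κ` at which `r` has a pole inject
into the poles of `r` on the projective line -/
theorem exists_injective_poles [IsAlgClosed κ] [DecidableEq κ] {r : RatFunc κ} (hr : r ≠ 0) :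
    ∃ f : {V : ValuationSubring (RatFunc κ) //
        (∀ a : κ, algebraMap κ (RatFunc κ) a ∈ V) ∧ r⁻¹ ∈ V.nonunits} → poleFinset r,
      Function.Injective f := by
  refine ⟨fun V => ⟨point V.1, point_mem_poleFinset V.2.1 hr V.2.2⟩, ?_⟩
  intro V V' h
  have h' : point V.1 = point V'.1 := congrArg Subtype.val h
  exact Subtype.ext (eq_of_point_eq V.2.1 V'.2.1 (ne_top_of_inv_mem_nonunits hr V.2.2)
    (ne_top_of_inv_mem_nonunits hr V'.2.2) h')

/-- **(P2)** finiteness of the set of poles of `r` among the valuation subrings of `κ(X)` -/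
theorem finite_poles [IsAlgClosed κ] {r : RatFunc κ} (hr : r ≠ 0) :
    Finite {V : ValuationSubring (RatFunc κ) //
      (∀ a : κ, algebraMap κ (RatFunc κ) a ∈ V) ∧ r⁻¹ ∈ V.nonunits} := by
  classical
  obtain ⟨f, hf⟩ := exists_injective_poles hr
  exact Finite.of_injective f hf

/-- **(P2)** the number of valuation subrings of `κ(X)` containing `κ` at which `r` has a pole
is at most the number of poles of `r` on the projective line -/
theorem card_poles_le [IsAlgClosed κ] [DecidableEq κ] {r : RatFunc κ} (hr : r ≠ 0) :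
    Nat.card {V : ValuationSubring (RatFunc κ) //
        (∀ a : κ, algebraMap κ (RatFunc κ) a ∈ V) ∧ r⁻¹ ∈ V.nonunits}
      ≤ r.denom.roots.toFinset.card + (if r.denom.natDegree < r.num.natDegree then 1 else 0) := by
  obtain ⟨f, hf⟩ := exists_injective_poles hr
  have h1 := Nat.card_le_card_of_injective f hf
  rw [Nat.card_eq_finsetCard, card_poleFinset] at h1
  exact h1

end RatFuncCase

/-! ### Valuation subrings of an extension `L` of `κ(X)` -/

section Extension

variable (κ : Type*) [Field κ]
variable (L : Type*) [Field L] [Algebra (RatFunc κ) L] [Algebra κ[X] L]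
  [IsScalarTower κ[X] (RatFunc κ) L] [Algebra κ L] [IsScalarTower κ (RatFunc κ) L]

/-- the valuation subrings of `L` containing `κ` at which `r` has a pole -/
def cuspSet (r : RatFunc κ) : Set (ValuationSubring L) :=
  {W | (∀ a : κ, algebraMap κ L a ∈ W) ∧ (algebraMap (RatFunc κ) L r)⁻¹ ∈ W.nonunits}

/-- the valuation subrings of `L` over the finite point `a`: `κ[X] ⊆ W` and `X - a ∈ 𝔪_W` -/
def valsAt (a : κ) : Set (ValuationSubring L) :=
  {W | (∀ p : κ[X], algebraMap κ[X] L p ∈ W) ∧ algebraMap κ[X] L (X - C a) ∈ W.nonunits}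

/-- the valuation subrings of `L` over the point at infinity: `κ ⊆ W` and `X⁻¹ ∈ 𝔪_W` -/
def valsInfty : Set (ValuationSubring L) :=
  {W | (∀ a : κ, algebraMap κ L a ∈ W) ∧ (algebraMap (RatFunc κ) L RatFunc.X)⁻¹ ∈ W.nonunits}

/-- the valuation subrings of `L` over a point of the projective line -/
def valsOver : Option κ → Set (ValuationSubring L)
  | some a => valsAt κ L a
  | none => valsInfty κ L

variable {κ L}

omit [Algebra κ[X] L] [IsScalarTower κ[X] (RatFunc κ) L] in
theorem comap_containsConst {W : ValuationSubring L} (h : ∀ a : κ, algebraMap κ L a ∈ W) :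
    ContainsConst (W.comap (algebraMap (RatFunc κ) L)) := by
  intro a
  rw [ValuationSubring.mem_comap, ← IsScalarTower.algebraMap_apply]
  exact h a

omit [Algebra κ[X] L] [IsScalarTower κ[X] (RatFunc κ) L] [Algebra κ L]
  [IsScalarTower κ (RatFunc κ) L] in
theorem mem_comap_nonunits_iff (W : ValuationSubring L) (x : RatFunc κ) :
    x ∈ (W.comap (algebraMap (RatFunc κ) L)).nonunits ↔
      algebraMap (RatFunc κ) L x ∈ W.nonunits := by
  rw [ValuationSubring.mem_nonunits_iff_or, ValuationSubring.mem_nonunits_iff_or,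
    ValuationSubring.mem_comap, map_inv₀, map_eq_zero]

theorem algebraMap_const_eq (a : κ) : algebraMap κ L a = algebraMap κ[X] L (C a) := by
  rw [IsScalarTower.algebraMap_apply κ (RatFunc κ) L,
    IsScalarTower.algebraMap_apply κ[X] (RatFunc κ) L, RatFunc.algebraMap_C]
  rfl

theorem mem_valsAt_iff (W : ValuationSubring L) (a : κ) :
    W ∈ valsAt κ L a ↔ (∀ c : κ, algebraMap κ L c ∈ W) ∧
      HasPoint (W.comap (algebraMap (RatFunc κ) L)) a := by
  unfold valsAt HasPoint
  rw [Set.mem_ofPred_eq, mem_comap_nonunits_iff, ← IsScalarTower.algebraMap_apply]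
  constructor
  · rintro ⟨h1, h2⟩
    exact ⟨fun c => by rw [algebraMap_const_eq]; exact h1 _, h2⟩
  · rintro ⟨h1, h2⟩
    refine ⟨fun p => ?_, h2⟩
    have hp : HasPoint (W.comap (algebraMap (RatFunc κ) L)) a := by
      unfold HasPoint
      rw [mem_comap_nonunits_iff, ← IsScalarTower.algebraMap_apply]
      exact h2
    have := poly_mem (comap_containsConst h1) (hp.X_mem (comap_containsConst h1)) p
    rw [ValuationSubring.mem_comap, ← IsScalarTower.algebraMap_apply] at this
    exact this

omit [Algebra κ[X] L] [IsScalarTower κ[X] (RatFunc κ) L] [IsScalarTower κ (RatFunc κ) L] in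
theorem mem_valsInfty_iff (W : ValuationSubring L) :
    W ∈ valsInfty κ L ↔ (∀ c : κ, algebraMap κ L c ∈ W) ∧
      HasPointInfty (W.comap (algebraMap (RatFunc κ) L)) := by
  unfold valsInfty HasPointInfty
  rw [Set.mem_ofPred_eq, mem_comap_nonunits_iff, map_inv₀]

omit [Algebra κ[X] L] [IsScalarTower κ[X] (RatFunc κ) L] [IsScalarTower κ (RatFunc κ) L] in
theorem mem_cuspSet_iff (W : ValuationSubring L) (r : RatFunc κ) :
    W ∈ cuspSet κ L r ↔ (∀ c : κ, algebraMap κ L c ∈ W) ∧
      r⁻¹ ∈ (W.comap (algebraMap (RatFunc κ) L)).nonunits := by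
  unfold cuspSet
  rw [Set.mem_ofPred_eq, mem_comap_nonunits_iff, map_inv₀]

/-- **(P3)** over a root of the denominator of `r`, `r` has a pole -/
theorem valsAt_subset_cuspSet {r : RatFunc κ} (hr : r ≠ 0) {a : κ} (ha : r.denom.IsRoot a) :
    valsAt κ L a ⊆ cuspSet κ L r := by
  intro W hW
  rw [mem_valsAt_iff] at hW
  rw [mem_cuspSet_iff]
  exact ⟨hW.1, (hW.2.inv_mem_nonunits_iff (comap_containsConst hW.1) hr).mpr ha⟩

omit [Algebra κ[X] L] [IsScalarTower κ[X] (RatFunc κ) L] in
/-- **(P3)** over the point at infinity, `r` has a pole if `deg denom < deg num` -/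
theorem valsInfty_subset_cuspSet {r : RatFunc κ} (hr : r ≠ 0)
    (hdeg : r.denom.natDegree < r.num.natDegree) : valsInfty κ L ⊆ cuspSet κ L r := by
  intro W hW
  rw [mem_valsInfty_iff] at hW
  rw [mem_cuspSet_iff]
  exact ⟨hW.1, (hW.2.inv_mem_nonunits_iff (comap_containsConst hW.1) hr).mpr hdeg⟩

/-- **(P3)** the sets over two distinct finite points are disjoint -/
theorem disjoint_valsAt {a b : κ} (hab : a ≠ b) : Disjoint (valsAt κ L a) (valsAt κ L b) := by
  rw [Set.disjoint_left]
  intro W hWa hWb
  rw [mem_valsAt_iff] at hWa hWb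
  exact hab (HasPoint.unique (comap_containsConst hWa.1) hWa.2 hWb.2)

/-- **(P3)** the sets over a finite point and over infinity are disjoint -/
theorem disjoint_valsAt_valsInfty (a : κ) : Disjoint (valsAt κ L a) (valsInfty κ L) := by
  rw [Set.disjoint_left]
  intro W hWa hWb
  rw [mem_valsAt_iff] at hWa
  rw [mem_valsInfty_iff] at hWb
  exact hWa.2.not_hasPointInfty (comap_containsConst hWa.1) hWb.2

/-- **(P3)** the sets over distinct points of the projective line are disjoint -/
theorem disjoint_valsOver {o o' : Option κ} (h : o ≠ o') :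
    Disjoint (valsOver κ L o) (valsOver κ L o') := by
  rcases o with _ | a <;> rcases o' with _ | b
  · exact absurd rfl h
  · exact (disjoint_valsAt_valsInfty b).symm
  · exact disjoint_valsAt_valsInfty a
  · exact disjoint_valsAt (fun hab => h (congrArg some hab))

/-- **(P3)** over a pole of `r` on the projective line, `r` has a pole -/
theorem valsOver_subset_cuspSet [DecidableEq κ] {r : RatFunc κ} (hr : r ≠ 0) {o : Option κ}
    (ho : o ∈ poleFinset r) : valsOver κ L o ⊆ cuspSet κ L r := by
  rcases o with _ | a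
  · exact valsInfty_subset_cuspSet hr ((none_mem_poleFinset r).mp ho)
  · exact valsAt_subset_cuspSet hr ((some_mem_poleFinset r a).mp ho)

/-- **(P3)** (`κ` algebraically closed) every valuation subring of `L` containing `κ` at which
`r` has a pole lies over a pole of `r` on the projective line -/
theorem cuspSet_eq_biUnion [IsAlgClosed κ] [DecidableEq κ] {r : RatFunc κ} (hr : r ≠ 0) :
    cuspSet κ L r = ⋃ o ∈ (poleFinset r : Set (Option κ)), valsOver κ L o := by
  apply Set.Subset.antisymm
  · intro W hW
    rw [mem_cuspSet_iff] at hW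
    have hκ := comap_containsConst (L := L) hW.1
    rw [Set.mem_iUnion₂]
    rcases exists_point hκ (ne_top_of_inv_mem_nonunits hr hW.2) with ⟨a, ha⟩ | hinf
    · refine ⟨some a, ?_, ?_⟩
      · rw [Finset.mem_coe, some_mem_poleFinset]
        exact (ha.inv_mem_nonunits_iff hκ hr).mp hW.2
      · show W ∈ valsAt κ L a
        rw [mem_valsAt_iff]
        exact ⟨hW.1, ha⟩
    · refine ⟨none, ?_, ?_⟩
      · rw [Finset.mem_coe, none_mem_poleFinset]
        exact (hinf.inv_mem_nonunits_iff hκ hr).mp hW.2
      · show W ∈ valsInfty κ L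
        rw [mem_valsInfty_iff]
        exact ⟨hW.1, hinf⟩
  · intro W hW
    rw [Set.mem_iUnion₂] at hW
    obtain ⟨o, ho, hWo⟩ := hW
    exact valsOver_subset_cuspSet hr (Finset.mem_coe.mp ho) hWo

theorem sum_poleFinset [DecidableEq κ] (r : RatFunc κ) (F : Option κ → ℕ) :
    ∑ o ∈ poleFinset r, F o = ∑ a ∈ r.denom.roots.toFinset, F (some a)
      + (if r.denom.natDegree < r.num.natDegree then F none else 0) := by
  unfold poleFinset
  rw [Finset.sum_union, Finset.sum_image (fun x _ y _ h => Option.some_injective κ h)]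
  · split_ifs <;> simp
  · rw [Finset.disjoint_left]
    intro o ho ho'
    rw [Finset.mem_image] at ho
    obtain ⟨b, -, rfl⟩ := ho
    split_ifs at ho'
    · rw [Finset.mem_singleton] at ho'
      exact Option.some_ne_none b ho'
    · exact Finset.notMem_empty _ ho'

theorem ncard_biUnion_valsOver [DecidableEq κ] {r : RatFunc κ} (hr : r ≠ 0)
    (hfin : (cuspSet κ L r).Finite) :
    (⋃ o ∈ (poleFinset r : Set (Option κ)), valsOver κ L o).ncard
      = ∑ o ∈ poleFinset r, (valsOver κ L o).ncard := by
  rw [Set.Finite.ncard_biUnion (Finset.finite_toSet _)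
    (fun o ho => hfin.subset (valsOver_subset_cuspSet hr (Finset.mem_coe.mp ho)))
    (fun o _ o' _ h => disjoint_valsOver h), finsum_mem_coe_finset]

/-- **(P3), count, `Set.ncard` form.** -/
theorem sum_ncard_valsOver_le [DecidableEq κ] {r : RatFunc κ} (hr : r ≠ 0)
    (hfin : (cuspSet κ L r).Finite) :
    ∑ o ∈ poleFinset r, (valsOver κ L o).ncard ≤ (cuspSet κ L r).ncard := by
  rw [← ncard_biUnion_valsOver hr hfin]
  apply Set.ncard_le_ncard _ hfin
  intro W hW
  rw [Set.mem_iUnion₂] at hW
  obtain ⟨o, ho, hWo⟩ := hW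
  exact valsOver_subset_cuspSet hr (Finset.mem_coe.mp ho) hWo

/-- **(P3), count, `Set.ncard` form, equality** (`κ` algebraically closed). -/
theorem sum_ncard_valsOver_eq [IsAlgClosed κ] [DecidableEq κ] {r : RatFunc κ} (hr : r ≠ 0)
    (hfin : (cuspSet κ L r).Finite) :
    ∑ o ∈ poleFinset r, (valsOver κ L o).ncard = (cuspSet κ L r).ncard := by
  rw [← ncard_biUnion_valsOver hr hfin, ← cuspSet_eq_biUnion hr]

/-- **(P3), count.**  The numbers of valuation subrings of `L` over the poles of `r` on the
projective line add up to at most the number of valuation subrings of `L` (containing `κ`) at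
which `r` has a pole. -/
theorem sum_card_vals_le [DecidableEq κ] {r : RatFunc κ} (hr : r ≠ 0)
    (hfin : Finite {W : ValuationSubring L //
      (∀ a : κ, algebraMap κ L a ∈ W) ∧ (algebraMap (RatFunc κ) L r)⁻¹ ∈ W.nonunits}) :
    ∑ a ∈ r.denom.roots.toFinset, Nat.card {W : ValuationSubring L //
          (∀ p : κ[X], algebraMap κ[X] L p ∈ W) ∧ algebraMap κ[X] L (X - C a) ∈ W.nonunits}
        + (if r.denom.natDegree < r.num.natDegree then Nat.card {W : ValuationSubring L //
          (∀ a : κ, algebraMap κ L a ∈ W) ∧ (algebraMap (RatFunc κ) L RatFunc.X)⁻¹ ∈ W.nonunits}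
          else 0)
      ≤ Nat.card {W : ValuationSubring L //
          (∀ a : κ, algebraMap κ L a ∈ W) ∧ (algebraMap (RatFunc κ) L r)⁻¹ ∈ W.nonunits} := by
  have hfin' : (cuspSet κ L r).Finite := hfin
  have h := sum_ncard_valsOver_le (L := L) hr hfin'
  rw [sum_poleFinset] at h
  exact h

/-- **(P3), count, equality** (`κ` algebraically closed). -/
theorem sum_card_vals_eq [IsAlgClosed κ] [DecidableEq κ] {r : RatFunc κ} (hr : r ≠ 0)
    (hfin : Finite {W : ValuationSubring L //
      (∀ a : κ, algebraMap κ L a ∈ W) ∧ (algebraMap (RatFunc κ) L r)⁻¹ ∈ W.nonunits}) :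
    ∑ a ∈ r.denom.roots.toFinset, Nat.card {W : ValuationSubring L //
          (∀ p : κ[X], algebraMap κ[X] L p ∈ W) ∧ algebraMap κ[X] L (X - C a) ∈ W.nonunits}
        + (if r.denom.natDegree < r.num.natDegree then Nat.card {W : ValuationSubring L //
          (∀ a : κ, algebraMap κ L a ∈ W) ∧ (algebraMap (RatFunc κ) L RatFunc.X)⁻¹ ∈ W.nonunits}
          else 0)
      = Nat.card {W : ValuationSubring L //
          (∀ a : κ, algebraMap κ L a ∈ W) ∧ (algebraMap (RatFunc κ) L r)⁻¹ ∈ W.nonunits} := by
  have hfin' : (cuspSet κ L r).Finite := hfin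
  have h := sum_ncard_valsOver_eq (L := L) hr hfin'
  rw [sum_poleFinset] at h
  exact h

end Extension

/-! ### Bridge to the valuation ring at infinity `Oinf κ` of `Lib/DedekindWeber` -/

section OinfBridge

open Fermat.Agent.Lib.DedekindWeber

variable {κ : Type*} [Field κ] [DecidableEq (RatFunc κ)]

theorem containsConst_Oinf : ContainsConst (Oinf κ) := by
  intro a
  rw [Valuation.mem_valuationSubring_iff]
  rcases eq_or_ne a 0 with rfl | ha
  · simp
  · exact (RatFunc.inftyValuation.C κ ha).le

theorem hasPointInfty_Oinf : HasPointInfty (Oinf κ) := by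
  unfold HasPointInfty
  rw [ValuationSubring.mem_nonunits_iff_or, inv_inv]
  right
  rw [Valuation.mem_valuationSubring_iff, RatFunc.inftyValuation.X, not_le, ← WithZero.exp_zero,
    WithZero.exp_lt_exp]
  exact zero_lt_one

/-- a valuation subring of `κ(X)` containing `κ` with the point at infinity is `Oinf κ` -/
theorem HasPointInfty.eq_Oinf {V : ValuationSubring (RatFunc κ)} (hκ : ContainsConst V)
    (h : HasPointInfty V) : V = Oinf κ :=
  HasPointInfty.eq hκ containsConst_Oinf h hasPointInfty_Oinf

variable {L : Type*} [Field L] [Algebra (RatFunc κ) L] [Algebra κ L]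
  [IsScalarTower κ (RatFunc κ) L]

/-- `valsInfty κ L` in the spelling `Oinf κ ⊆ W ∧ X⁻¹ ∈ 𝔪_W` -/
theorem valsInfty_eq_Oinf :
    valsInfty κ L = {W : ValuationSubring L | (∀ s : Oinf κ, algebraMap (Oinf κ) L s ∈ W) ∧
      (algebraMap (RatFunc κ) L RatFunc.X)⁻¹ ∈ W.nonunits} := by
  ext W
  constructor
  · intro hW
    refine ⟨fun s => ?_, hW.2⟩
    have h := (mem_valsInfty_iff W).mp hW
    have hO := HasPointInfty.eq_Oinf (comap_containsConst h.1) h.2
    have hs : (s : RatFunc κ) ∈ W.comap (algebraMap (RatFunc κ) L) := by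
      rw [hO]; exact s.2
    exact ValuationSubring.mem_comap.mp hs
  · rintro ⟨h1, h2⟩
    refine ⟨fun a => ?_, h2⟩
    have := h1 ⟨algebraMap κ (RatFunc κ) a, containsConst_Oinf a⟩
    rw [IsScalarTower.algebraMap_apply κ (RatFunc κ) L]
    exact this

end OinfBridge

end Fermat.Agent.S18.RRl.Poles
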